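import Fermat.Agent.TwoAdic.Switch.Galois.Dihedral
import Fermat.Agent.TwoAdic.Selmer.Decomposition
import Fermat.Agent.TwoAdic.Contracts.Props

/-!
# From the contracts to the dihedral set-up

An auxiliary prime is a transposition prime, and triviality of the Selmer group at the standard
places gives vanishing at all places.
-/

set_option autoImplicit false

noncomputable section

open WeierstrassCurve
open scoped WeierstrassCurve.Affine

namespace Fermat.Agent.TwoAdic

local notation "Qb" => AlgebraicClosure ℚ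
local notation "Γℚ" => (AlgebraicClosure ℚ ≃ₐ[ℚ] AlgebraicClosure ℚ)

/-- Automorphisms agreeing on `V[2 ^ n]` permute the roots alike. -/
lemma perm_eq_of_galoisRepModuleEnd_eq {V : WeierstrassCurve ℤ} (hΔ : V.Δ ≠ 0)
    {T : Selmer.CubicRoots} (hT : IsTwoTorsionRoots V T) {n : ℕ} (hn : n ≠ 0) {g h : Γℚ}
    (e : Affine.Point.galoisRepModuleEnd (K := Qb) ℚ (V.map (Int.castRingHom ℚ)) (2 ^ n) g =
      Affine.Point.galoisRepModuleEnd (K := Qb) ℚ (V.map (Int.castRingHom ℚ)) (2 ^ n) h) :
    T.perm g = T.perm h := by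
  refine Equiv.ext fun i => T.root_injective ?_
  rw [← T.apply_root, ← T.apply_root]
  obtain ⟨y, hy, h2⟩ := exists_two_nsmul_eq_zero_of_root hΔ (hT i)
  obtain ⟨m, rfl⟩ := Nat.exists_eq_succ_of_ne_zero hn
  have hmem : (Affine.Point.some (T.root i) y hy : ((V.map (Int.castRingHom ℚ))⁄Qb).Point) ∈
      Submodule.torsionBy ℤ ((V.map (Int.castRingHom ℚ))⁄Qb).Point (2 ^ (m + 1) : ℕ) := by
    rw [Submodule.mem_torsionBy_iff, natCast_zsmul, pow_succ, mul_nsmul', h2, nsmul_zero]
  have hP := congrArg Subtype.val (LinearMap.congr_fun e ⟨_, hmem⟩)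
  change g • (Affine.Point.some (T.root i) y hy : ((V.map (Int.castRingHom ℚ))⁄Qb).Point) =
    h • (Affine.Point.some (T.root i) y hy : ((V.map (Int.castRingHom ℚ))⁄Qb).Point) at hP
  injection hP

/-- Complex conjugation transposes two roots. -/
lemma perm_complexConjugation_ne_one {V : WeierstrassCurve ℤ} (hV : IsTresModel V)
    {T : Selmer.CubicRoots} (hT : IsTwoTorsionRoots V T) : T.perm complexConjugation ≠ 1 := by
  have := EC.isElliptic_map_rat hV.delta_ne_zero
  obtain ⟨T₀, hT₀, hS, -⟩ := exists_dihedralSetup hV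
  obtain ⟨e, -, he⟩ :=
    exists_relabel (EC.tateRepBasis (V.map (Int.castRingHom ℚ)) 2) hV.delta_ne_zero hT₀ hT
  intro h
  refine hS.conj_ne (Equiv.ext fun i => e.injective ?_)
  rw [he, h]
  rfl

lemma exists_fixed_of_sq_eq_one : ∀ s : Equiv.Perm (Fin 3), s * s = 1 → ∃ r, s r = r := by
  decide

/-- An auxiliary prime is a transposition prime. -/
theorem isTranspositionPrime_of_isAuxPrime {V : WeierstrassCurve ℤ} (hV : IsTresModel V)
    {T : Selmer.CubicRoots} (hT : IsTwoTorsionRoots V T) {n q : ℕ} (hn : n ≠ 0)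
    (hq : IsAuxPrime V n q) : IsTranspositionPrime T (badPrimes V) q where
  prime := hq.prime
  notMem h := hq.good ((mem_badPrimes_iff hV.delta_ne_zero).1 h).2
  frob P hP σ hσ := by
    obtain ⟨g, hg⟩ := hq.frob P hP σ hσ
    rw [perm_eq_of_galoisRepModuleEnd_eq hV.delta_ne_zero hT hn hg]
    refine ⟨fun h => perm_complexConjugation_ne_one hV hT ?_, exists_fixed_of_sq_eq_one _ ?_⟩
    · rw [_root_.map_mul, _root_.map_mul, map_inv, mul_inv_eq_one] at h
      exact mul_left_cancel (h.trans (mul_one _).symm)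
    · rw [← _root_.map_mul, show g * complexConjugation * g⁻¹ * (g * complexConjugation * g⁻¹) =
          g * (complexConjugation * complexConjugation) * g⁻¹ by group,
        complexConjugation_mul_self, mul_one, mul_inv_cancel, map_one]

/-- Triviality of the Selmer group gives vanishing at all places. -/
theorem selmerVanishes_of_selmerTrivial {V : WeierstrassCurve ℤ} {Q : Finset ℕ}
    {T : Selmer.CubicRoots} (hT : IsTwoTorsionRoots V T) (_hp : ∀ q ∈ signSet V Q, q.Prime)
    (h : SelmerTrivial V Q) : T.SelmerVanishes (badPrimes V ∪ Q) := by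
  intro x hx hline hunr
  refine h T hT x hx (fun v hv => ?_) fun v hv τ hτ =>
    hunr v v.2 hv _ (Selmer.liesOverPrime_padicPlace v) _ (Selmer.toGlobal_mem_inertia v hτ)
  obtain ⟨r, hr⟩ := hline v hv _ (Selmer.liesOverPrime_padicPlace v)
  have hd : ∀ τ : ClassField.Idele.LocalGal v,
      Selmer.toGlobal v τ ∈ (padicPlace (v : ℕ)).decompositionSubgroup ℚ :=
    fun τ => localGaloisToGlobal_mem_decompositionSubgroup (v : ℕ) τ
  exact ⟨r, fun τ => (hr _ (hd τ)).1, fun τ => (hr _ (hd τ)).2⟩

end Fermat.Agent.TwoAdic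

end
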