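import Mathlib.NumberTheory.Padics.RingHoms
import Fermat.Agent.TwoAdic.Selmer.Defs
import Fermat.Agent.TwoAdic.Universal.Defs

/-!
# The dihedral set-up

The normal form is given by `IsDihedralMat`: rotations and reflections.

`T` is the cubic of `E[2]`, `S₀` its bad primes (with `2`).  At each prime of `S₀` inertia acts by
a transposition and the decomposition group fixes a root; elsewhere `T` is unramified; complex
conjugation is a transposition.
-/

set_option autoImplicit false

noncomputable section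

open IsLocalRing Matrix

namespace Fermat.Agent.TwoAdic

local notation "ℚ̄" => AlgebraicClosure ℚ
local notation "Γℚ" => (AlgebraicClosure ℚ ≃ₐ[ℚ] AlgebraicClosure ℚ)

open Selmer (CubicRoots)

/-- The hypotheses on the residual representation. -/
structure IsDihedralSetup (T : CubicRoots) (S₀ : Finset ℕ) : Prop where
  prime : ∀ v ∈ S₀, v.Prime
  two_mem : 2 ∈ S₀
  unramified : ∀ q : ℕ, q.Prime → q ∉ S₀ → ∀ P : ValuationSubring ℚ̄, P.LiesOverPrime q →
    ∀ σ ∈ P.inertiaSubgroupIn ℚ, T.perm σ = 1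
  inertia_ne : ∀ v ∈ S₀, ∀ P : ValuationSubring ℚ̄, P.LiesOverPrime v →
    ∃ σ ∈ P.inertiaSubgroupIn ℚ, T.perm σ ≠ 1
  decomposition_fix : ∀ v ∈ S₀, ∀ P : ValuationSubring ℚ̄, P.LiesOverPrime v →
    ∃ r : Fin 3, ∀ σ ∈ P.decompositionSubgroup ℚ, T.perm σ r = r
  conj_ne : T.perm complexConjugation ≠ 1

/-- An odd prime outside `S₀` whose Frobenius elements act as transpositions. -/
structure IsTranspositionPrime (T : CubicRoots) (S₀ : Finset ℕ) (q : ℕ) : Prop where
  prime : q.Prime
  notMem : q ∉ S₀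
  frob : ∀ P : ValuationSubring ℚ̄, P.LiesOverPrime q → ∀ σ : Γℚ, P.IsFrobeniusAt σ q →
    T.perm σ ≠ 1 ∧ ∃ r : Fin 3, T.perm σ r = r

/-- The line condition at one place, without cohomology: the decomposition group fixes a root
whose component of `x` vanishes on it. -/
def Selmer.CubicRoots.LineAtPlace (T : CubicRoots) (P : ValuationSubring ℚ̄)
    (x : Γℚ → Fin 3 → ZMod 2) : Prop :=
  ∃ r : Fin 3, ∀ σ ∈ P.decompositionSubgroup ℚ, T.perm σ r = r ∧ x σ r = 0

/-- A coboundary. -/
def Selmer.CubicRoots.IsCoboundary (T : CubicRoots) (x : Γℚ → Fin 3 → ZMod 2) : Prop :=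
  ∃ w : Fin 3 → ZMod 2, (∑ i, w i = 0) ∧ ∀ σ, x σ = T.act σ w - w

/-- Every class with the line conditions on `S`, unramified outside `S`, is trivial. -/
def Selmer.CubicRoots.SelmerVanishes (T : CubicRoots) (S : Finset ℕ) : Prop :=
  ∀ x : Γℚ → Fin 3 → ZMod 2, T.IsCocycle x →
    (∀ v ∈ S, ∀ P : ValuationSubring ℚ̄, P.LiesOverPrime v → T.LineAtPlace P x) →
    (∀ q : ℕ, q.Prime → q ∉ S → ∀ P : ValuationSubring ℚ̄, P.LiesOverPrime q →
      ∀ σ ∈ P.inertiaSubgroupIn ℚ, x σ = 0) →
    T.IsCoboundary x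

/-- Places and Frobenius elements adapted to `T`. -/
structure IsPlaces (T : CubicRoots) {S : Finset ℕ} (pl : SignedPlaces S) : Prop where
  liesOver : ∀ v, (pl.place v).LiesOverPrime (v : ℕ)
  frob : ∀ v, (pl.place v).IsFrobeniusAt (pl.frob v) (v : ℕ)
  frob_ne : ∀ v, T.perm (pl.frob v) ≠ 1

section Residual

variable (T : CubicRoots) (k : Type) [Field k]

/-- The functions of total zero on the roots. -/
def sumZero : Submodule k (Fin 3 → k) where
  carrier := {w | ∑ i, w i = 0}
  add_mem' := by
    intro a b ha hb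
    simp only [Set.mem_ofPred_eq, Pi.add_apply, Finset.sum_add_distrib] at ha hb ⊢
    rw [ha, hb, add_zero]
  zero_mem' := by simp
  smul_mem' := by
    intro c a ha
    simp only [Set.mem_ofPred_eq, Pi.smul_apply, smul_eq_mul, ← Finset.mul_sum] at ha ⊢
    rw [ha, mul_zero]

theorem mem_sumZero {w : Fin 3 → k} : w ∈ sumZero k ↔ ∑ i, w i = 0 := Iff.rfl

/-- Coordinates at the first two roots. -/
def sumZeroEquiv : sumZero k ≃ₗ[k] (Fin 2 → k) where
  toFun w := ![(w : Fin 3 → k) 0, (w : Fin 3 → k) 1]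
  invFun a := ⟨![a 0, a 1, -(a 0 + a 1)], by simp [mem_sumZero, Fin.sum_univ_three]⟩
  map_add' a b := by ext i; fin_cases i <;> simp
  map_smul' c a := by ext i; fin_cases i <;> simp
  left_inv w := by
    refine Subtype.ext (funext fun i => ?_)
    have h := (mem_sumZero k).1 w.2
    rw [Fin.sum_univ_three] at h
    fin_cases i
    · rfl
    · rfl
    · simpa using neg_eq_of_add_eq_zero_right h
  right_inv a := by ext i; fin_cases i <;> simp

/-- The action on functions of total zero. -/
def permRep : Γℚ →* Module.End k (sumZero k) where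
  toFun σ :=
    { toFun := fun w => ⟨fun i => (w : Fin 3 → k) ((T.perm σ).symm i), by
        rw [mem_sumZero, Equiv.sum_comp (T.perm σ).symm (w : Fin 3 → k)]
        exact (mem_sumZero k).1 w.2⟩
      map_add' := fun _ _ => rfl
      map_smul' := fun _ _ => rfl }
  map_one' := LinearMap.ext fun w => Subtype.ext (funext fun i => by
    change (w : Fin 3 → k) ((T.perm 1).symm i) = (w : Fin 3 → k) i
    rw [map_one]; rfl)
  map_mul' σ τ := LinearMap.ext fun w => Subtype.ext (funext fun i => by
    change (w : Fin 3 → k) ((T.perm (σ * τ)).symm i) =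
      (w : Fin 3 → k) ((T.perm τ).symm ((T.perm σ).symm i))
    rw [map_mul]; rfl)

theorem Selmer.CubicRoots.perm_eq_one_of_forall {σ : Γℚ} (h : ∀ i, σ (T.root i) = T.root i) :
    T.perm σ = 1 :=
  Equiv.ext fun i => T.root_injective ((T.apply_root σ i).symm.trans (h i))

/-- The residual representation of `T`. -/
def residualRep : ResidualGaloisRep k where
  V := sumZero k
  finrank_eq := by rw [(sumZeroEquiv k).finrank_eq, Module.finrank_fin_fun]
  ρ := permRep T k
  factorsThroughFiniteLevel := by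
    refine ⟨IntermediateField.adjoin ℚ (Set.range T.root), ?_, fun σ hσ => ?_⟩
    · exact IntermediateField.finiteDimensional_adjoin fun x _ => Algebra.IsIntegral.isIntegral x
    · have h : T.perm σ = 1 := T.perm_eq_one_of_forall fun i =>
        hσ _ (IntermediateField.subset_adjoin ℚ _ ⟨i, rfl⟩)
      exact LinearMap.ext fun w => Subtype.ext (funext fun i => by
        change (w : Fin 3 → k) ((T.perm σ).symm i) = (w : Fin 3 → k) i
        rw [h]; rfl)

end Residual

/-- The residual representation over the residue field of `ℤ₂`. -/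
abbrev rhoBar (T : CubicRoots) : ResidualGaloisRep (ResidueField ℤ_[2]) :=
  residualRep T (ResidueField ℤ_[2])

section Normal

variable {A : Type} [CommRing A]

/-- The rotation of order three on the coordinates at the first two roots, in characteristic two. -/
def rotMat (A : Type) [CommRing A] : Matrix (Fin 2) (Fin 2) A := !![1, 1; 1, 0]

/-- The residual matrix of `σ` in the coordinates at the first two roots, read in characteristic
two. -/
def Selmer.CubicRoots.mat (T : CubicRoots) (A : Type) [CommRing A] (σ : Γℚ) :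
    Matrix (Fin 2) (Fin 2) A :=
  Matrix.of fun i j =>
    if (T.perm σ).symm i.castSucc = 2 ∨ (T.perm σ).symm i.castSucc = j.castSucc then 1 else 0

/-- A rotation: an element of `A[w]`. -/
def IsRotation (M : Matrix (Fin 2) (Fin 2) A) : Prop :=
  ∃ a b : A, M = a • (1 : Matrix (Fin 2) (Fin 2) A) + b • rotMat A

/-- A reflection: an element of `A[w] j`. -/
def IsReflection (M : Matrix (Fin 2) (Fin 2) A) : Prop :=
  ∃ a b : A, M = (a • (1 : Matrix (Fin 2) (Fin 2) A) + b • rotMat A) * !![0, 1; 1, 0]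

/-- The normal form. -/
structure IsDihedralMat (T : CubicRoots) (r : Γℚ →* Matrix (Fin 2) (Fin 2) A) : Prop where
  rotation : ∀ σ, Equiv.Perm.sign (T.perm σ) = 1 → IsRotation (r σ)
  reflection : ∀ σ, Equiv.Perm.sign (T.perm σ) ≠ 1 → IsReflection (r σ)
  conj_eq : r complexConjugation = T.mat A complexConjugation

/-- A deformation with signed lines over a ring of characteristic two, as matrices. -/
structure IsSignedMat [IsLocalRing A] (T : CubicRoots) {S : Finset ℕ} (pl : SignedPlaces S)
    (r : Γℚ →* Matrix (Fin 2) (Fin 2) A) (u : S → A) : Prop where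
  factors : GaloisFactorsThroughFiniteLevel r
  residual : ∀ σ, (r σ).map (residue A) = (T.mat A σ).map (residue A)
  det : ∀ σ, (r σ).det = 1
  unramified : ∀ q : ℕ, q.Prime → q ∉ S → ∀ P : ValuationSubring ℚ̄, P.LiesOverPrime q →
    ∀ σ ∈ P.inertiaSubgroupIn ℚ, r σ = 1
  sq_eq_one : ∀ v, u v ^ 2 = 1
  line : ∀ v, ∃ γ : GL (Fin 2) A,
    (∀ σ ∈ (pl.place v).decompositionSubgroup ℚ, ((γ⁻¹).1 * r σ * γ.1) 1 0 = 0) ∧
    (∀ σ ∈ (pl.place v).inertiaSubgroupIn ℚ, ((γ⁻¹).1 * r σ * γ.1) 1 1 = 1) ∧
    ((γ⁻¹).1 * r (pl.frob v) * γ.1) 1 1 = u v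

end Normal

end Fermat.Agent.TwoAdic
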