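import Fermat.Agent.TwoAdic.Contracts.Defs
import Fermat.Agent.TwoAdic.Dihedral.Setup
import Fermat.Agent.TwoAdic.RingClass.Roots
import Mathlib.RingTheory.ClassGroup.Basic
import Mathlib.NumberTheory.NumberField.InfinitePlace.TotallyRealComplex

/-!
# A copy of the discriminant field among the subfields of `ℚ̄`

`ℚ(√Δ)` embeds in `ℚ̄`; its image is fixed by exactly the even elements, is totally complex, and
has the same class number.
-/

set_option autoImplicit false

noncomputable section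

open NumberField

namespace Fermat.Agent.TwoAdic

local notation "ℚ̄" => AlgebraicClosure ℚ
local notation "Γℚ" => (AlgebraicClosure ℚ ≃ₐ[ℚ] AlgebraicClosure ℚ)

/-- The image in `ℚ̄` of the discriminant field. -/
theorem exists_discSubfield {V : WeierstrassCurve ℤ} (hV : IsTresModel V) {T : Selmer.CubicRoots}
    (hT : IsTwoTorsionRoots V T) (K : Type) [Field K] [NumberField K] (hK : IsDiscField V K) :
    ∃ (F : IntermediateField ℚ (AlgebraicClosure ℚ)) (_ : NumberField F),
      NumberField.IsTotallyComplex F ∧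
        (∀ σ : AlgebraicClosure ℚ ≃ₐ[ℚ] AlgebraicClosure ℚ,
          σ ∈ F.fixingSubgroup ↔ Equiv.Perm.sign (T.perm σ) = 1) ∧
        Nat.card (ClassGroup (NumberField.RingOfIntegers F)) = NumberField.classNumber K := by
  obtain ⟨h2, s, hs⟩ := hK
  let ι : K →ₐ[ℚ] ℚ̄ := IsAlgClosed.lift
  let e : K ≃ₐ[ℚ] ι.fieldRange := AlgEquiv.ofInjectiveField ι
  have hfin : FiniteDimensional ℚ ι.fieldRange := e.toLinearEquiv.finiteDimensional
  have hnf : NumberField ι.fieldRange := { }
  have hsι : (ι s) ^ 2 = (V.Δ : ℚ̄) := by rw [← map_pow, hs, map_intCast]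
  have hroots : ∀ i, RingClass.twoDiv V (T.root i) = 0 := hT
  refine ⟨ι.fieldRange, hnf, ?_, fun σ => ?_, ?_⟩
  · refine ⟨fun w => ?_⟩
    by_contra hw
    rw [InfinitePlace.not_isComplex_iff_isReal] at hw
    have h : (InfinitePlace.embedding_of_isReal hw (e s)) ^ 2 = (V.Δ : ℝ) := by
      rw [← map_pow, ← map_pow, hs, map_intCast, map_intCast]
    have hneg : (V.Δ : ℝ) < 0 := Int.cast_lt_zero.mpr hV.delta_neg
    nlinarith [sq_nonneg (InfinitePlace.embedding_of_isReal hw (e s))]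
  · rw [← RingClass.apply_sqrtDiscr_eq_self_iff hroots hV.delta_ne_zero σ hsι,
      IntermediateField.mem_fixingSubgroup_iff]
    refine ⟨fun h => h _ ⟨s, rfl⟩, fun h x hx => ?_⟩
    obtain ⟨y, rfl⟩ := hx
    have hmem : s ∈ AlgHom.equalizer ((σ : ℚ̄ →ₐ[ℚ] ℚ̄).comp ι) ι := h
    have htop : AlgHom.equalizer ((σ : ℚ̄ →ₐ[ℚ] ℚ̄).comp ι) ι = ⊤ := by
      have : IsSimpleOrder (Subalgebra ℚ K) :=
        Subalgebra.isSimpleOrder_of_finrank_prime ℚ K (h2 ▸ Nat.prime_two)
      refine (eq_bot_or_eq_top _).resolve_left fun hbot => ?_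
      rw [hbot, Algebra.mem_bot] at hmem
      obtain ⟨q, hq⟩ := hmem
      have hq2 : (q : ℚ) ^ 2 = (V.Δ : ℚ) := by
        refine (algebraMap ℚ K).injective ?_
        rw [map_pow, hq, hs, map_intCast]
      have hneg : (V.Δ : ℚ) < 0 := Int.cast_lt_zero.mpr hV.delta_neg
      nlinarith [sq_nonneg q]
    exact (show y ∈ AlgHom.equalizer ((σ : ℚ̄ →ₐ[ℚ] ℚ̄).comp ι) ι from htop ▸ Algebra.mem_top)
  · rw [NumberField.classNumber, ← Nat.card_eq_fintype_card]
    exact Nat.card_congr
      (ClassGroup.mulEquiv (RingOfIntegers.mapRingEquiv e.toRingEquiv)).toEquiv.symm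

end Fermat.Agent.TwoAdic
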