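import Fermat.Agent.TwoAdic.Dihedral.Main
import Fermat.Agent.TwoAdic.Dihedral.BridgeCurve
import Fermat.Agent.TwoAdic.Dihedral.BridgeField
import Fermat.Agent.TwoAdic.Switch.Galois.Dihedral

/-!
# The dihedral bound at a tres curve: `DihedralBound`
-/

set_option autoImplicit false

noncomputable section

namespace Fermat.Agent.TwoAdic

/-- **P6: the dihedral bound.** -/
theorem dihedralBound : DihedralBound := by
  intro V hV K _ _ hK n Q hn hQ hsel pl hover hsig D
  obtain ⟨T, hT, hsetup, hequiv⟩ := exists_dihedralSetup hV
  obtain ⟨F, _, _, hF, hclass⟩ := exists_discSubfield hV hT K hK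
  refine exists_generators_of_setup hsetup hequiv F hF hclass
    (fun q hq => isTranspositionPrime_of_isAuxPrime hV hT (by omega) (hQ.aux q hq))
    (selmerVanishes_of_selmerTrivial hT (fun q hq => ?_) hsel) hover hsig D
  rcases Finset.mem_union.1 hq with h | h
  · exact (Nat.mem_primeFactors.1 h).1
  · exact (hQ.aux q h).prime

end Fermat.Agent.TwoAdic

end
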