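import Fermat.Agent.TwoAdic.Dihedral.NormalForm
import Fermat.Agent.RT.LocalQ.Decomposition
import Fermat.Agent.Density.PlacesConj

/-!
# Matrix deformations with signed lines: conjugation, change of ring, local consequences
-/

set_option autoImplicit false

noncomputable section

open IsLocalRing Matrix
open scoped Pointwise

namespace Fermat.Agent.TwoAdic

local notation "ℚ̄" => AlgebraicClosure ℚ
local notation "Γℚ" => (AlgebraicClosure ℚ ≃ₐ[ℚ] AlgebraicClosure ℚ)

open Selmer (CubicRoots)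

namespace Dihedral

variable {A : Type} [CommRing A] {T : CubicRoots} {S₀ Q : Finset ℕ}

/-- Conjugation of a matrix representation. -/
def conjRep (g : GL (Fin 2) A) (r : Γℚ →* Matrix (Fin 2) (Fin 2) A) :
    Γℚ →* Matrix (Fin 2) (Fin 2) A where
  toFun σ := (g⁻¹).1 * r σ * g.1
  map_one' := by rw [map_one, mul_one, Units.inv_mul]
  map_mul' σ τ := by
    rw [map_mul]
    simp only [mul_assoc, Units.mul_inv_cancel_left]

@[simp] theorem conjRep_apply (g : GL (Fin 2) A) (r : Γℚ →* Matrix (Fin 2) (Fin 2) A) (σ : Γℚ) :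
    conjRep g r σ = (g⁻¹).1 * r σ * g.1 := rfl

/-- The deformation divided by the residual matrices. -/
def ratio (T : CubicRoots) (r : Γℚ →* Matrix (Fin 2) (Fin 2) A) (σ : Γℚ) :
    Matrix (Fin 2) (Fin 2) A :=
  r σ * permMat A (T.perm σ)⁻¹

theorem eq_ratio_mul [Nontrivial A] (h2 : (2 : A) = 0) (r : Γℚ →* Matrix (Fin 2) (Fin 2) A)
    (σ : Γℚ) : r σ = ratio T r σ * permMat A (T.perm σ) := by
  rw [ratio, mul_assoc, permMat_inv_mul h2, mul_one]

theorem ratio_mul [Nontrivial A] (h2 : (2 : A) = 0) (r : Γℚ →* Matrix (Fin 2) (Fin 2) A)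
    (σ τ : Γℚ) :
    ratio T r (σ * τ) =
      ratio T r σ * (permMat A (T.perm σ) * ratio T r τ * permMat A (T.perm σ)⁻¹) := by
  rw [ratio, map_mul, map_mul, _root_.mul_inv_rev, permMat_mul h2, ratio, ratio]
  simp only [mul_assoc]
  rw [← mul_assoc (permMat A (T.perm σ)⁻¹) (permMat A (T.perm σ)), permMat_inv_mul h2, one_mul]

theorem ratio_conjRep [Nontrivial A] (h2 : (2 : A) = 0) (g : GL (Fin 2) A)
    (r : Γℚ →* Matrix (Fin 2) (Fin 2) A) (σ : Γℚ) :
    ratio T (conjRep g r) σ =
      (g⁻¹).1 * ratio T r σ * (permMat A (T.perm σ) * g.1 * permMat A (T.perm σ)⁻¹) := by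
  rw [ratio, conjRep_apply, ratio]
  simp only [mul_assoc]
  rw [← mul_assoc (permMat A (T.perm σ)⁻¹) (permMat A (T.perm σ)), permMat_inv_mul h2, one_mul]

theorem map_conjugate_eq_one [IsLocalRing A] (h2 : (2 : A) = 0) (π : Equiv.Perm (Fin 3))
    {X : Matrix (Fin 2) (Fin 2) A} (hX : X.map (residue A) = 1) :
    (permMat A π * X * permMat A π⁻¹).map (residue A) = 1 := by
  rw [Matrix.map_mul, Matrix.map_mul, hX, mul_one, ← Matrix.map_mul,
    ← permMat_mul h2, mul_inv_cancel, permMat_one, Matrix.map_one _ (map_zero _) (map_one _)]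

theorem map_inv_eq_one [IsLocalRing A] {g : GL (Fin 2) A} (hg : g.1.map (residue A) = 1) :
    (g⁻¹).1.map (residue A) = 1 := by
  have h : ((g⁻¹).1 * g.1).map (residue A) = 1 := by
    rw [Units.inv_mul, Matrix.map_one _ (map_zero _) (map_one _)]
  rwa [Matrix.map_mul, hg, mul_one] at h

section Signed

variable [IsLocalRing A] {S : Finset ℕ} {pl : SignedPlaces S}
  {r : Γℚ →* Matrix (Fin 2) (Fin 2) A} {u : S → A}

theorem isSignedMat_conjRep (hr : IsSignedMat T pl r u) {g : GL (Fin 2) A}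
    (hg : g.1.map (residue A) = 1) : IsSignedMat T pl (conjRep g r) u where
  factors := by
    obtain ⟨L, hL, h⟩ := hr.factors
    exact ⟨L, hL, fun σ hσ => by rw [conjRep_apply, h σ hσ, mul_one, Units.inv_mul]⟩
  residual σ := by
    rw [conjRep_apply, Matrix.map_mul, Matrix.map_mul, map_inv_eq_one hg, hg, one_mul, mul_one,
      hr.residual σ]
  det σ := by
    rw [conjRep_apply, det_mul, det_mul, hr.det σ, mul_one, ← det_mul, Units.inv_mul, det_one]
  unramified q hq hqS P hP σ hσ := by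
    rw [conjRep_apply, hr.unramified q hq hqS P hP σ hσ, mul_one, Units.inv_mul]
  sq_eq_one := hr.sq_eq_one
  line v := by
    obtain ⟨γ, hγ1, hγ2, hγ3⟩ := hr.line v
    have key : ∀ σ, ((g⁻¹ * γ)⁻¹).1 * conjRep g r σ * (g⁻¹ * γ).1 = (γ⁻¹).1 * r σ * γ.1 := by
      intro σ
      rw [_root_.mul_inv_rev, inv_inv, Units.val_mul, Units.val_mul, conjRep_apply]
      simp only [mul_assoc, Units.mul_inv_cancel_left]
    refine ⟨g⁻¹ * γ, fun σ hσ => ?_, fun σ hσ => ?_, ?_⟩
    · rw [key]; exact hγ1 σ hσ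
    · rw [key]; exact hγ2 σ hσ
    · rw [key]; exact hγ3

theorem isSignedMat_map (hr : IsSignedMat T pl r u) {B : Type} [CommRing B] [IsLocalRing B]
    (f : A →+* B) [IsLocalHom f] :
    IsSignedMat T pl (f.mapMatrix.toMonoidHom.comp r) (f ∘ u) where
  factors := by
    obtain ⟨L, hL, h⟩ := hr.factors
    exact ⟨L, hL, fun σ hσ => by simp [h σ hσ]⟩
  residual σ := by
    have h := congrArg (fun M => M.map (ResidueField.map f)) (hr.residual σ)
    simp only [Matrix.map_map] at h
    have hcomp : (ResidueField.map f : ResidueField A → ResidueField B) ∘ residue A =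
        residue B ∘ f := funext fun a => ResidueField.map_residue f a
    rw [hcomp, ← Matrix.map_map, ← Matrix.map_map, mat_eq_permMat, permMat_map,
      ← mat_eq_permMat] at h
    exact h
  det σ := by
    rw [MonoidHom.comp_apply]
    change (f.mapMatrix (r σ)).det = 1
    rw [← RingHom.map_det, hr.det σ, map_one]
  unramified q hq hqS P hP σ hσ := by simp [hr.unramified q hq hqS P hP σ hσ]
  sq_eq_one v := by simp [← map_pow, hr.sq_eq_one v]
  line v := by
    obtain ⟨γ, hγ1, hγ2, hγ3⟩ := hr.line v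
    have key : ∀ σ i j, (((Units.map f.mapMatrix.toMonoidHom γ)⁻¹).1 *
        f.mapMatrix (r σ) * (Units.map f.mapMatrix.toMonoidHom γ).1) i j =
        f (((γ⁻¹).1 * r σ * γ.1) i j) := fun σ i j => by
      rw [← map_inv, Units.coe_map, Units.coe_map]
      change (f.mapMatrix (γ⁻¹).1 * f.mapMatrix (r σ) * f.mapMatrix γ.1) i j = _
      rw [← map_mul, ← map_mul]
      rfl
    refine ⟨Units.map f.mapMatrix.toMonoidHom γ, fun σ hσ => ?_, fun σ hσ => ?_, ?_⟩
    · exact (key σ 1 0).trans (by rw [hγ1 σ hσ, map_zero])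
    · exact (key σ 1 1).trans (by rw [hγ2 σ hσ, map_one])
    · exact (key _ 1 1).trans (by rw [hγ3]; rfl)

theorem map_ratio_eq_one (h2 : (2 : A) = 0) (hr : IsSignedMat T pl r u) (σ : Γℚ) :
    (ratio T r σ).map (residue A) = 1 := by
  rw [ratio, Matrix.map_mul, hr.residual σ, mat_eq_permMat, ← Matrix.map_mul,
    ← permMat_mul h2, mul_inv_cancel, permMat_one, Matrix.map_one _ (map_zero _) (map_one _)]

theorem perm_eq_one_of_eq_one (h2 : (2 : A) = 0) (hr : IsSignedMat T pl r u) {σ : Γℚ}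
    (h : r σ = 1) : T.perm σ = 1 := by
  have h' := hr.residual σ
  rw [h, Matrix.map_one _ (map_zero _) (map_one _), mat_eq_permMat, permMat_map] at h'
  refine eq_one_of_permMat_eq_one (A := ResidueField A) ?_ h'.symm
  rw [← map_ofNat (residue A) 2, h2, map_zero]

/-- The trace vanishes on the decomposition groups of `S`. -/
theorem trace_eq_zero (h2 : (2 : A) = 0) (hr : IsSignedMat T pl r u) {v : S} (hv : (v : ℕ).Prime)
    (hP : (pl.place v).LiesOverPrime (v : ℕ))
    (hF : (pl.place v).IsFrobeniusAt (pl.frob v) (v : ℕ)) {τ : Γℚ}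
    (hτ : τ ∈ (pl.place v).decompositionSubgroup ℚ) : (r τ).trace = 0 := by
  obtain ⟨γ, hγ1, hγ2, hγ3⟩ := hr.line v
  let D := (pl.place v).decompositionSubgroup ℚ
  let W : Γℚ →* Matrix (Fin 2) (Fin 2) A := conjRep γ r
  have hmul : ∀ a ∈ D, ∀ b ∈ D, W (a * b) 1 1 = W a 1 1 * W b 1 1 := by
    intro a ha b _
    rw [map_mul, Matrix.mul_apply, Fin.sum_univ_two,
      show W a 1 0 = 0 from hγ1 a ha, zero_mul, zero_add]
  obtain ⟨L, hL, hker⟩ := hr.factors
  obtain ⟨s, hs, i, hi⟩ := RT.exists_inertia_mul_frobenius_pow r.toHomUnits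
    ⟨L, hL, fun σ hσ => Units.ext (hker σ hσ)⟩ hv hP hF hτ
  have hsD : s ∈ D := ((Density.mem_inertiaSubgroupIn_iff).1 hs).1
  have hri : r τ = r (pl.frob v ^ i * s) := by
    have := congrArg Units.val hi
    simpa [map_mul, map_pow] using this
  have hWF : ∀ j : ℕ, W (pl.frob v ^ j) 1 1 = u v ^ j := by
    intro j
    induction j with
    | zero => simp
    | succ j ih =>
      rw [pow_succ, hmul _ (D.pow_mem hF.mem_decompositionSubgroup j) _
        hF.mem_decompositionSubgroup, ih, show W (pl.frob v) 1 1 = u v from hγ3, pow_succ]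
  have h11 : W τ 1 1 = u v ^ i := by
    rw [show W τ = W (pl.frob v ^ i * s) by simp only [W, conjRep_apply, hri],
      hmul _ (D.pow_mem hF.mem_decompositionSubgroup i) _ hsD, hWF,
      show W s 1 1 = 1 from hγ2 s hs, mul_one]
  have hdet : W τ 0 0 * W τ 1 1 = 1 := by
    have h : (W τ).det = 1 := by
      simp only [W, conjRep_apply]
      rw [det_mul, det_mul, hr.det τ, mul_one, ← det_mul, Units.inv_mul, det_one]
    rw [det_fin_two, show W τ 1 0 = 0 from hγ1 τ hτ, mul_zero, sub_zero] at h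
    exact h
  have hsq : u v ^ i * u v ^ i = 1 := by
    rw [← mul_pow, ← sq, hr.sq_eq_one v, one_pow]
  have h00 : W τ 0 0 = u v ^ i := by
    rw [h11] at hdet
    calc W τ 0 0 = W τ 0 0 * (u v ^ i * u v ^ i) := by rw [hsq, mul_one]
      _ = u v ^ i := by rw [← mul_assoc, hdet, one_mul]
  have htr : (W τ).trace = (r τ).trace := by
    simp only [W, conjRep_apply]
    rw [trace_mul_comm, ← mul_assoc, Units.mul_inv, one_mul]
  rw [← htr, trace_fin_two, h00, h11, add_self h2]

end Signed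

section Places

variable {pl : SignedPlaces (S₀ ∪ Q)}

/-- At each place of `S` the decomposition group fixes a root, which the Frobenius element fixes
without fixing the others. -/
theorem exists_fixed_root (hT : IsDihedralSetup T S₀)
    (hQ : ∀ q ∈ Q, IsTranspositionPrime T S₀ q) (hpl : IsPlaces T pl)
    (v : (S₀ ∪ Q : Finset ℕ)) :
    ∃ k : Fin 3, ∀ σ ∈ (pl.place v).decompositionSubgroup ℚ, T.perm σ k = k := by
  rcases Finset.mem_union.1 v.2 with hv | hv
  · exact hT.decomposition_fix _ hv _ (hpl.liesOver v)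
  obtain ⟨hne, k, hk⟩ := (hQ _ hv).frob _ (hpl.liesOver v) _ (hpl.frob v)
  refine ⟨k, fun σ hσ => ?_⟩
  have hfin : ∃ L : IntermediateField ℚ ℚ̄, FiniteDimensional ℚ L ∧
      ∀ τ : Γℚ, (∀ x ∈ L, τ x = x) → T.perm τ = 1 :=
    ⟨IntermediateField.adjoin ℚ (Set.range T.root),
      IntermediateField.finiteDimensional_adjoin fun x _ => Algebra.IsIntegral.isIntegral x,
      fun τ hτ => T.perm_eq_one_of_forall fun i =>
        hτ _ (IntermediateField.subset_adjoin ℚ _ ⟨i, rfl⟩)⟩
  obtain ⟨s, hs, i, hi⟩ := RT.exists_inertia_mul_frobenius_pow T.perm hfin (hQ _ hv).prime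
    (hpl.liesOver v) (hpl.frob v) hσ
  rw [hi, hT.unramified _ (hQ _ hv).prime (hQ _ hv).notMem _ (hpl.liesOver v) s hs, mul_one]
  exact Equiv.Perm.pow_apply_eq_self_of_apply_eq_self hk i

end Places

end Dihedral

end Fermat.Agent.TwoAdic

end
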