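import Fermat.Agent.TwoAdic.Dihedral.Setup
import Fermat.Agent.TwoAdic.Dihedral.SignedMat

/-!
# With a vanishing Selmer group every deformation over a finite `𝔽₂`-algebra is dihedral

Induction on the order of the ring.  If `t ≠ 0` is killed by the maximal ideal and the deformation
is in normal form modulo `t`, the defect of `r σ * T.mat σ⁻¹` is `t` times a cocycle in the sum-zero
functions on the roots.  It satisfies the line condition everywhere in `S` because the trace
vanishes on the decomposition groups, so it is a coboundary and can be removed by conjugation.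
-/

set_option autoImplicit false

noncomputable section

open IsLocalRing Matrix
open scoped Pointwise

namespace Fermat.Agent.TwoAdic

local notation "ℚ̄" => AlgebraicClosure ℚ
local notation "Γℚ" => (AlgebraicClosure ℚ ≃ₐ[ℚ] AlgebraicClosure ℚ)

open Selmer (CubicRoots)

namespace Dihedral

variable {A : Type} [CommRing A] {T : CubicRoots} {S₀ Q : Finset ℕ}

section Selmer

variable [IsLocalRing A] {pl : SignedPlaces (S₀ ∪ Q)} {r : Γℚ →* Matrix (Fin 2) (Fin 2) A}
  {u : (S₀ ∪ Q : Finset ℕ) → A}

/-- A deformation which is normal modulo a `t` killed by the maximal ideal can be made normal. -/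
theorem exists_conj_of_small (hT : IsDihedralSetup T S₀)
    (hQ : ∀ q ∈ Q, IsTranspositionPrime T S₀ q) (hvan : T.SelmerVanishes (S₀ ∪ Q))
    (hpl : IsPlaces T pl) (h2 : (2 : A) = 0) (hr : IsSignedMat T pl r u) {t : A}
    (ht0 : t ≠ 0) (htm : t ∈ maximalIdeal A) (htk : ∀ e ∈ maximalIdeal A, t * e = 0)
    (hsmall : ∀ σ i, rotDefect (ratio T r σ) i = 0 ∨ rotDefect (ratio T r σ) i = t) :
    ∃ g : GL (Fin 2) A, g.1.map (residue A) = 1 ∧
      ∀ σ, rotDefect (ratio T (conjRep g r) σ) = 0 := by
  classical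
  let ι : ZMod 2 → A := fun e => if e = 0 then 0 else t
  have hι0 : ι 0 = 0 := if_pos rfl
  have hι1 : ι 1 = t := if_neg (by decide)
  have hcases : ∀ e : ZMod 2, e = 0 ∨ e = 1 := by decide
  have hιadd : ∀ e e', ι (e + e') = ι e + ι e' := by
    intro e e'
    rcases hcases e with rfl | rfl <;> rcases hcases e' with rfl | rfl <;>
      simp [hι0, hι1, add_self h2, show (1 : ZMod 2) + 1 = 0 by decide]
  have hιinj : ∀ e e', ι e = ι e' → e = e' := by
    intro e e'
    rcases hcases e with rfl | rfl <;> rcases hcases e' with rfl | rfl <;>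
      simp [hι0, hι1, ht0, Ne.symm ht0]
  have hιk : ∀ e, ∀ a ∈ maximalIdeal A, ι e * a = 0 := by
    intro e a ha
    rcases hcases e with rfl | rfl <;> simp [hι0, hι1, htk a ha]
  let x : Γℚ → Fin 3 → ZMod 2 := fun σ i => if rotDefect (ratio T r σ) i = 0 then 0 else 1
  have hx : ∀ σ i, ι (x σ i) = rotDefect (ratio T r σ) i := by
    intro σ i
    simp only [x]
    split_ifs with h
    · rw [hι0, h]
    · rw [hι1, (hsmall σ i).resolve_left h]
  have hk : ∀ σ i, ∀ a ∈ maximalIdeal A, rotDefect (ratio T r σ) i * a = 0 :=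
    fun σ i a ha => by rw [← hx]; exact hιk _ a ha
  have h1 : ∀ σ, (ratio T r σ).map (residue A) = 1 := map_ratio_eq_one h2 hr
  have hmul : ∀ σ τ, x (σ * τ) = x σ + T.act σ (x τ) := by
    intro σ τ
    funext i
    refine hιinj _ _ ?_
    rw [Pi.add_apply, hιadd, hx, hx, CubicRoots.act, hx, ratio_mul h2,
      rotDefect_mul h2 (h1 σ) (map_conjugate_eq_one h2 _ (h1 τ)) (hk σ)
        (fun j a ha => by rw [rotDefect_conj h2]; exact hk τ _ a ha),
      Pi.add_apply, rotDefect_conj h2]
  have hsum : ∀ σ, ∑ i, x σ i = 0 := by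
    intro σ
    refine hιinj _ _ ?_
    rw [Fin.sum_univ_three, hιadd, hιadd, hx, hx, hx, hι0]
    have := rotDefect_sum h2 (ratio T r σ)
    rwa [Fin.sum_univ_three] at this
  have hone : ∀ σ, r σ = 1 → x σ = 0 := by
    intro σ h
    funext i
    refine hιinj _ _ ?_
    rw [hx, ratio, h, perm_eq_one_of_eq_one h2 hr h, inv_one, permMat_one, mul_one,
      rotDefect_one h2]
    simp [hι0]
  have hcoc : T.IsCocycle x :=
    ⟨hsum, hmul, by
      obtain ⟨L, hL, h⟩ := hr.factors
      exact ⟨L, hL, fun σ hσ => hone σ (h σ hσ)⟩⟩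
  -- the line conditions
  have hline : ∀ (v : (S₀ ∪ Q : Finset ℕ)) (P : ValuationSubring ℚ̄), P.LiesOverPrime (v : ℕ) →
      T.LineAtPlace P x := by
    intro v P hP
    have hv : (v : ℕ).Prime := by
      rcases Finset.mem_union.1 v.2 with h | h
      exacts [hT.prime _ h, (hQ _ h).prime]
    obtain ⟨k, hk'⟩ := exists_fixed_root hT hQ hpl v
    have hodd : ∀ σ ∈ (pl.place v).decompositionSubgroup ℚ, T.perm σ ≠ 1 → x σ k = 0 := by
      intro σ hσ hne
      refine hιinj _ _ ?_
      rw [hx, hι0, ratio, rotDefect_mul_transposition h2 (hk' σ hσ) hne,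
        trace_eq_zero h2 hr hv (hpl.liesOver v) (hpl.frob v) hσ]
    have hall : ∀ σ ∈ (pl.place v).decompositionSubgroup ℚ, x σ k = 0 := by
      intro σ hσ
      by_cases hne : T.perm σ = 1
      swap; · exact hodd σ hσ hne
      have hF := (hpl.frob v).mem_decompositionSubgroup
      have h := congrFun (hmul σ (pl.frob v)) k
      rw [hodd _ (mul_mem hσ hF) (by rw [map_mul, hne, one_mul]; exact hpl.frob_ne v),
        Pi.add_apply, CubicRoots.act, hne] at h
      simp only [Equiv.Perm.one_def, Equiv.refl_symm, Equiv.refl_apply] at h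
      rwa [hodd _ hF (hpl.frob_ne v), add_zero, eq_comm] at h
    obtain ⟨a, rfl⟩ := Density.exists_smul_eq hv (hpl.liesOver v) hP
    refine ⟨T.perm a k, fun σ hσ => ?_⟩
    have hσ' : a⁻¹ * σ * a ∈ (pl.place v).decompositionSubgroup ℚ := by
      have := Density.mem_decompositionSubgroup_smul hσ a⁻¹
      rwa [inv_smul_smul, inv_inv] at this
    have hfix : T.perm σ (T.perm a k) = T.perm a k := by
      have h := hk' _ hσ'
      rw [map_mul, map_mul, map_inv, Equiv.Perm.mul_apply, Equiv.Perm.mul_apply] at h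
      simpa using congrArg (T.perm a) h
    refine ⟨hfix, ?_⟩
    have h1' := congrFun (hmul a (a⁻¹ * σ * a)) (T.perm a k)
    have h2' := congrFun (hmul σ a) (T.perm a k)
    rw [show a * (a⁻¹ * σ * a) = σ * a by group, h2', Pi.add_apply, Pi.add_apply, CubicRoots.act,
      CubicRoots.act, Equiv.symm_apply_apply, hall _ hσ', add_zero,
      show (T.perm σ).symm (T.perm a k) = T.perm a k from
        (T.perm σ).symm_apply_eq.2 hfix.symm] at h1'
    simpa using h1'
  obtain ⟨w, hw, hxw⟩ := hvan x hcoc (fun v hv P hP => hline ⟨v, hv⟩ P hP)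
    (fun q hq hqS P hP σ hσ => hone σ (hr.unramified q hq hqS P hP σ hσ))
  -- conjugate
  let N : Matrix (Fin 2) (Fin 2) A := offMat fun i => ι (w i)
  have hιw : ∀ i j, ι (w i) * ι (w j) = 0 := fun i j => hιk _ _ (by
    rcases hcases (w j) with h | h <;> simp [h, hι0, hι1, htm])
  have hNN : N * N = 0 := by
    ext i j
    fin_cases i <;> fin_cases j <;> simp [N, offMat, Matrix.mul_apply, Fin.sum_univ_two, hιw]
  have hgg : (1 + N) * (1 + N) = 1 := by
    rw [add_mul, mul_add, mul_add, hNN, one_mul, mul_one, one_mul, add_zero, add_assoc]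
    ext i j
    simp [add_self h2]
  let g : GL (Fin 2) A := ⟨1 + N, 1 + N, hgg, hgg⟩
  have hg1 : g.1.map (residue A) = 1 := by
    have hι' : ∀ e, residue A (ι e) = 0 := by
      intro e
      rcases hcases e with rfl | rfl
      · simp [hι0]
      · rw [hι1]; exact (residue_eq_zero_iff t).2 htm
    ext i j
    fin_cases i <;> fin_cases j <;> simp [g, N, offMat, hι']
  have hgd : rotDefect g.1 = fun i => ι (w i) := by
    change rotDefect (1 + N) = _
    rw [rotDefect_add, rotDefect_one h2, zero_add]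
    refine rotDefect_offMat h2 ?_
    rw [Fin.sum_univ_three] at hw ⊢
    rw [← hιadd, ← hιadd, hw, hι0]
  have hgd' : rotDefect (g⁻¹).1 = fun i => ι (w i) := hgd
  refine ⟨g, hg1, fun σ => ?_⟩
  have hkg : ∀ i, ∀ a ∈ maximalIdeal A,
      rotDefect (permMat A (T.perm σ) * g.1 * permMat A (T.perm σ)⁻¹) i * a = 0 := fun i a ha => by
    rw [rotDefect_conj h2, hgd]; exact hιk _ a ha
  have hZ : ((g⁻¹).1 * ratio T r σ).map (residue A) = 1 := by
    rw [Matrix.map_mul, map_inv_eq_one hg1, h1, one_mul]
  have hZd : rotDefect ((g⁻¹).1 * ratio T r σ) = fun i => ι (w i + x σ i) := by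
    rw [rotDefect_mul h2 (map_inv_eq_one hg1) (h1 σ)
      (fun i a ha => by rw [hgd']; exact hιk _ a ha) (hk σ), hgd']
    funext i
    rw [Pi.add_apply, hιadd, hx]
  rw [ratio_conjRep h2, rotDefect_mul h2 hZ (map_conjugate_eq_one h2 _ hg1)
    (fun i a ha => by rw [hZd]; exact hιk _ a ha) hkg]
  funext i
  rw [Pi.add_apply, hZd, rotDefect_conj h2, hgd, ← hιadd, Pi.zero_apply]
  rw [congrFun (hxw σ) i, Pi.sub_apply, CubicRoots.act, add_sub_cancel,
    show ∀ e : ZMod 2, e + e = 0 by decide, hι0]

end Selmer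

theorem rotDefect_map {B : Type} [CommRing B] (f : A →+* B) (X : Matrix (Fin 2) (Fin 2) A)
    (i : Fin 3) : f (rotDefect X i) = rotDefect (X.map f) i := by
  fin_cases i <;> simp [rotDefect]

/-- The induction. -/
theorem exists_conj_normal (hT : IsDihedralSetup T S₀)
    (hQ : ∀ q ∈ Q, IsTranspositionPrime T S₀ q) (hvan : T.SelmerVanishes (S₀ ∪ Q))
    {pl : SignedPlaces (S₀ ∪ Q)} (hpl : IsPlaces T pl) (n : ℕ) :
    ∀ (A : Type) [CommRing A] [IsLocalRing A] [Finite A], Nat.card A ≤ n → (2 : A) = 0 →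
      (∀ a : A, a ∈ maximalIdeal A ∨ a - 1 ∈ maximalIdeal A) →
      ∀ (r : Γℚ →* Matrix (Fin 2) (Fin 2) A) (u : (S₀ ∪ Q : Finset ℕ) → A),
        IsSignedMat T pl r u →
        ∃ g : GL (Fin 2) A, g.1.map (residue A) = 1 ∧
          ∀ σ, rotDefect (ratio T (conjRep g r) σ) = 0 := by
  induction n using Nat.strong_induction_on with
  | _ n ih =>
    intro A _ _ _ hn h2 hA r u hr
    by_cases hm : maximalIdeal A = ⊥
    · refine ⟨1, by simp, fun σ => ?_⟩
      have h := map_ratio_eq_one h2 (isSignedMat_conjRep hr (g := 1) (by simp)) σ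
      have hinj : Function.Injective (residue A) := by
        rw [injective_iff_map_eq_zero]
        intro a ha
        rwa [residue_eq_zero_iff, hm, Ideal.mem_bot] at ha
      rw [← Matrix.map_one (residue A) (map_zero _) (map_one _)] at h
      rw [Matrix.map_injective hinj h, rotDefect_one h2]
    have hnonempty : {a : A | a ∈ maximalIdeal A ∧ a ≠ 0}.Nonempty :=
      Submodule.exists_mem_ne_zero_of_ne_bot hm
    obtain ⟨t, ⟨htm, ht0⟩, hmin⟩ := Set.Finite.exists_minimalFor
      (fun a => Ideal.span ({a} : Set A)) _ (Set.toFinite _) hnonempty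
    have htk : ∀ e ∈ maximalIdeal A, t * e = 0 := by
      intro e he
      by_contra hne
      have hle : Ideal.span ({t * e} : Set A) ≤ Ideal.span {t} :=
        Ideal.span_singleton_le_span_singleton.2 (dvd_mul_right t e)
      have h := hmin (show t * e ∈ maximalIdeal A ∧ t * e ≠ 0 from
        ⟨Ideal.mul_mem_left _ t he, hne⟩) hle
      obtain ⟨a, ha⟩ := Ideal.span_singleton_le_span_singleton.1 h
      have hu : IsUnit (1 - e * a) := IsLocalRing.isUnit_one_sub_self_of_mem_nonunits _
        (Ideal.mul_mem_right a _ he)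
      exact ht0 ((hu.mul_left_eq_zero).1 (by linear_combination ha))
    let B := A ⧸ Ideal.span ({t} : Set A)
    let f : A →+* B := Ideal.Quotient.mk _
    have hsf : Function.Surjective f := Ideal.Quotient.mk_surjective
    have hne : Ideal.span ({t} : Set A) ≠ ⊤ := fun h =>
      (maximalIdeal.isMaximal A).ne_top (top_le_iff.1 (h ▸ (Ideal.span_singleton_le_iff_mem _).2 htm))
    have : Nontrivial B := Ideal.Quotient.nontrivial_iff.2 hne
    have : IsLocalRing B := IsLocalRing.of_surjective' f hsf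
    have : IsLocalHom f := hsf.isLocalHom f
    have : Finite B := Finite.of_surjective f hsf
    have h2B : (2 : B) = 0 := by rw [← map_ofNat f 2, h2, map_zero]
    have hAB : ∀ b : B, b ∈ maximalIdeal B ∨ b - 1 ∈ maximalIdeal B := by
      intro b
      obtain ⟨a, rfl⟩ := hsf b
      rcases hA a with h | h
      · exact Or.inl ((map_nonunit f a h))
      · refine Or.inr ?_
        rw [← map_one f, ← map_sub]
        exact map_nonunit f _ h
    have hcard : Nat.card B < Nat.card A := by
      refine lt_of_le_of_ne (Nat.card_le_card_of_surjective f hsf) fun h => ht0 ?_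
      have := Fintype.ofFinite A
      have := Fintype.ofFinite B
      rw [Nat.card_eq_fintype_card, Nat.card_eq_fintype_card] at h
      have hb : Function.Bijective f :=
        (Fintype.bijective_iff_surjective_and_card f).2 ⟨hsf, h.symm⟩
      refine hb.1 ?_
      rw [map_zero]
      exact Ideal.Quotient.eq_zero_iff_mem.2 (Ideal.mem_span_singleton_self t)
    obtain ⟨gB, hgB, hgBn⟩ := ih (Nat.card B) (lt_of_lt_of_le hcard hn) B le_rfl h2B hAB _ _
      (isSignedMat_map hr f)
    choose G hG using fun i j => hsf (gB.1 i j)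
    have hG1 : (Matrix.of G).map (residue A) = 1 := by
      refine Matrix.ext fun i j => (ResidueField.map f).injective ?_
      have := congrFun (congrFun hgB i) j
      rw [Matrix.map_apply, Matrix.of_apply, ResidueField.map_residue, hG]
      rw [Matrix.map_apply] at this
      rw [this]
      by_cases h : i = j <;> simp [h, Matrix.one_apply]
    have hGu : IsUnit (Matrix.of G) := by
      rw [Matrix.isUnit_iff_isUnit_det]
      refine isUnit_of_map_unit (residue A) _ ?_
      rw [RingHom.map_det, RingHom.mapMatrix_apply, hG1, det_one]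
      exact isUnit_one
    let g : GL (Fin 2) A := hGu.unit
    have hgmap : Units.map f.mapMatrix.toMonoidHom g = gB := Units.ext (Matrix.ext hG)
    have hr1 := isSignedMat_conjRep hr (g := g) hG1
    have hsmall : ∀ σ i, rotDefect (ratio T (conjRep g r) σ) i = 0 ∨
        rotDefect (ratio T (conjRep g r) σ) i = t := by
      intro σ i
      have hval : (ratio T (conjRep g r) σ).map f =
          ratio T (conjRep gB (f.mapMatrix.toMonoidHom.comp r)) σ := by
        rw [ratio, ratio, Matrix.map_mul, permMat_map, conjRep_apply, conjRep_apply, ← hgmap,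
          Matrix.map_mul, Matrix.map_mul]
        rfl
      have h : f (rotDefect (ratio T (conjRep g r) σ) i) = 0 := by
        rw [rotDefect_map, hval, hgBn σ, Pi.zero_apply]
      obtain ⟨a, ha⟩ := Ideal.mem_span_singleton'.1 (Ideal.Quotient.eq_zero_iff_mem.1 h)
      rcases hA a with h | h
      · exact Or.inl (by rw [← ha, mul_comm, htk a h])
      · exact Or.inr (by rw [← ha]; linear_combination htk _ h)
    obtain ⟨g', hg', hn'⟩ := exists_conj_of_small hT hQ hvan hpl h2 hr1 ht0 htm htk hsmall
    refine ⟨g * g', ?_, fun σ => ?_⟩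
    · rw [Units.val_mul, Matrix.map_mul, hg', mul_one]
      exact hG1
    · have h : conjRep (g * g') r = conjRep g' (conjRep g r) := MonoidHom.ext fun σ => by
        simp only [conjRep_apply, _root_.mul_inv_rev, Units.val_mul, mul_assoc]
      rw [h]
      exact hn' σ

theorem det_permMat [Nontrivial A] (h2 : (2 : A) = 0) (π : Equiv.Perm (Fin 3)) :
    (permMat A π).det = 1 := by
  have := charTwo_of_two_eq_zero A h2
  have key : ∀ a : Equiv.Perm (Fin 3), (permMat (ZMod 2) a).det = 1 := by decide +kernel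
  rw [← permMat_map (ZMod 2) (ZMod.castHom dvd_rfl A), ← RingHom.mapMatrix_apply,
    ← RingHom.map_det, key π, map_one]

theorem permMat_mul_rot [Nontrivial A] (h2 : (2 : A) = 0) {π : Equiv.Perm (Fin 3)}
    (hπ : Equiv.Perm.sign π ≠ 1) (a b : A) :
    permMat A π * rot a b = rot (a + b) b * permMat A π := by
  obtain ⟨c, d, ⟨h, -⟩ | ⟨-, h⟩⟩ := exists_permMat_eq h2 π
  · exact absurd h hπ
  have hs : !![(0 : A), 1; 1, 0] * rot a b = rot (a + b) b * !![0, 1; 1, 0] := by
    ext i j
    fin_cases i <;> fin_cases j <;> simp [rot, Matrix.mul_apply, Fin.sum_univ_two] <;> grind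
  rw [h, mul_assoc, hs, ← mul_assoc, ← mul_assoc, rot_mul_rot h2, rot_mul_rot h2]
  congr 2 <;> ring

/-- Conjugate so that complex conjugation is the residual matrix. -/
theorem exists_conj_complexConjugation [IsLocalRing A] (h2 : (2 : A) = 0) {S : Finset ℕ}
    {pl : SignedPlaces S} {r : Γℚ →* Matrix (Fin 2) (Fin 2) A} {u : S → A}
    (hr : IsSignedMat T pl r u) (hc : T.perm complexConjugation ≠ 1)
    (hn : ∀ σ, rotDefect (ratio T r σ) = 0) :
    ∃ g : GL (Fin 2) A, g.1.map (residue A) = 1 ∧
      (∀ σ, rotDefect (ratio T (conjRep g r) σ) = 0) ∧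
      conjRep g r complexConjugation = permMat A (T.perm complexConjugation) := by
  set c := complexConjugation
  have hsign : Equiv.Perm.sign (T.perm c) ≠ 1 := by
    have key : ∀ π : Equiv.Perm (Fin 3), π * π = 1 → π ≠ 1 → Equiv.Perm.sign π ≠ 1 := by decide
    exact key _ (by rw [← map_mul, complexConjugation_mul_self, map_one]) hc
  obtain ⟨a, b, hab⟩ := exists_rot_of_rotDefect_eq_zero h2 (hn c)
  have hR1 := map_ratio_eq_one h2 hr c
  rw [hab] at hR1
  have hra : residue A a = 1 := by simpa [rot] using congrFun (congrFun hR1 1) 1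
  have hrb : residue A b = 0 := by simpa [rot] using congrFun (congrFun hR1 0) 1
  have hdet : (a + b) * a - b * b = 1 := by
    rw [← det_rot, ← hab, ratio, det_mul, hr.det, det_permMat h2, one_mul]
  -- `z = w + (a + b w) (w + 1)`
  set x := a + b
  set y := a + 1
  have he : IsUnit (x * x + x * y + y * y) := by
    refine isUnit_of_map_unit (residue A) _ ?_
    have : (1 : ResidueField A) + 1 = 0 := by
      rw [← map_one (residue A), ← map_add, one_add_one_eq_two, h2, map_zero]
    simp [x, y, hra, hrb, this]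
  obtain ⟨e, he'⟩ := he.exists_left_inv
  have hz1 : rot x y * rot (e * (x + y)) (e * y) = 1 := by
    rw [rot_mul_rot h2, show x * (e * (x + y)) + y * (e * y) = 1 by linear_combination he',
      show x * (e * y) + y * (e * (x + y)) + y * (e * y) = 0 by
        linear_combination (e * x * y + e * y * y) * h2, rot_one_zero]
  have hz2 : rot (e * (x + y)) (e * y) * rot x y = 1 := by
    rw [rot_mul_rot h2, show e * (x + y) * x + e * y * y = 1 by linear_combination he',
      show e * (x + y) * y + e * y * x + e * y * y = 0 by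
        linear_combination (e * x * y + e * y * y) * h2, rot_one_zero]
  let z : GL (Fin 2) A := ⟨rot x y, rot (e * (x + y)) (e * y), hz1, hz2⟩
  refine ⟨z, ?_, fun σ => ?_, ?_⟩
  · have : (1 : ResidueField A) + 1 = 0 := by
      rw [← map_one (residue A), ← map_add, one_add_one_eq_two, h2, map_zero]
    ext i j
    fin_cases i <;> fin_cases j <;> simp [z, rot, x, y, hra, hrb, this]
  · obtain ⟨c₁, d₁, h₁⟩ := exists_rot_of_rotDefect_eq_zero h2 (hn σ)
    obtain ⟨c₂, d₂, h₂⟩ := exists_rot_of_rotDefect_eq_zero h2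
      (X := permMat A (T.perm σ) * z.1 * permMat A (T.perm σ)⁻¹) (funext fun i => by
        rw [rotDefect_conj h2]; exact congrFun (rotDefect_rot h2 x y) _)
    rw [ratio_conjRep h2, h₁, h₂]
    change rotDefect (rot (e * (x + y)) (e * y) * rot c₁ d₁ * rot c₂ d₂) = 0
    rw [rot_mul_rot h2, rot_mul_rot h2, rotDefect_rot h2]
  · rw [conjRep_apply, eq_ratio_mul (T := T) h2 r c, hab]
    change rot (e * (x + y)) (e * y) * (rot a b * permMat A (T.perm c)) * rot x y = _
    rw [mul_assoc, mul_assoc, permMat_mul_rot h2 hsign, ← mul_assoc (rot a b), rot_mul_rot h2,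
      show a * (x + y) + b * y = x by
        simp only [x, y]; linear_combination (a * a + a * b) * h2,
      show a * y + b * (x + y) + b * y = y by
        simp only [x, y]; linear_combination hdet + (b * b + a * b + b) * h2,
      ← mul_assoc, hz2, one_mul]

theorem isDihedralMat_of_normal [IsLocalRing A] (h2 : (2 : A) = 0)
    {r : Γℚ →* Matrix (Fin 2) (Fin 2) A} (hn : ∀ σ, rotDefect (ratio T r σ) = 0)
    (hc : r complexConjugation = permMat A (T.perm complexConjugation)) : IsDihedralMat T r where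
  rotation σ hσ := by
    rw [isRotation_iff]
    obtain ⟨a, b, hab⟩ := exists_rot_of_rotDefect_eq_zero h2 (hn σ)
    obtain ⟨c, d, ⟨-, h⟩ | ⟨h, -⟩⟩ := exists_permMat_eq h2 (T.perm σ)
    · exact ⟨_, _, by rw [eq_ratio_mul (T := T) h2 r σ, hab, h, rot_mul_rot h2]⟩
    · exact absurd hσ h
  reflection σ hσ := by
    rw [isReflection_iff]
    obtain ⟨a, b, hab⟩ := exists_rot_of_rotDefect_eq_zero h2 (hn σ)
    obtain ⟨c, d, ⟨h, -⟩ | ⟨-, h⟩⟩ := exists_permMat_eq h2 (T.perm σ)
    · exact absurd h hσ
    · exact ⟨_, _, by rw [eq_ratio_mul (T := T) h2 r σ, hab, h, ← mul_assoc, rot_mul_rot h2]⟩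
  conj_eq := hc

end Dihedral

/-- Induction on small extensions. -/
theorem exists_conj_isDihedralMat {T : CubicRoots} {S₀ Q : Finset ℕ} (hT : IsDihedralSetup T S₀)
    (hQ : ∀ q ∈ Q, IsTranspositionPrime T S₀ q) (hvan : T.SelmerVanishes (S₀ ∪ Q))
    {pl : SignedPlaces (S₀ ∪ Q)} (hpl : IsPlaces T pl)
    (A : Type) [CommRing A] [IsLocalRing A] [Finite A] (h2 : (2 : A) = 0)
    (hA : ∀ a : A, a ∈ maximalIdeal A ∨ a - 1 ∈ maximalIdeal A)
    (r : Γℚ →* Matrix (Fin 2) (Fin 2) A) (u : (S₀ ∪ Q : Finset ℕ) → A)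
    (hr : IsSignedMat T pl r u) :
    ∃ (g : GL (Fin 2) A) (r' : Γℚ →* Matrix (Fin 2) (Fin 2) A),
      g.1.map (residue A) = 1 ∧ (∀ σ, r' σ = (g⁻¹).1 * r σ * g.1) ∧
      IsDihedralMat T r' ∧ IsSignedMat T pl r' u := by
  obtain ⟨g, hg, hn⟩ :=
    Dihedral.exists_conj_normal hT hQ hvan hpl (Nat.card A) A le_rfl h2 hA r u hr
  have hr1 := Dihedral.isSignedMat_conjRep hr hg
  obtain ⟨z, hz, hn', hc⟩ := Dihedral.exists_conj_complexConjugation h2 hr1 hT.conj_ne hn
  refine ⟨g * z, Dihedral.conjRep z (Dihedral.conjRep g r), ?_, fun σ => ?_,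
    Dihedral.isDihedralMat_of_normal h2 hn' hc, Dihedral.isSignedMat_conjRep hr1 hz⟩
  · rw [Units.val_mul, Matrix.map_mul, hg, hz, one_mul]
  · simp only [Dihedral.conjRep_apply, _root_.mul_inv_rev, Units.val_mul, mul_assoc]

end Fermat.Agent.TwoAdic

end
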