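import Fermat.Agent.TwoAdic.Dihedral.Setup
import Fermat.Agent.Density.PlacesConj

/-!
# Local consequences of the normal form

On the index two subgroup the deformation is unramified everywhere, and the sign at a bad prime is
its value at an element of that subgroup.
-/

set_option autoImplicit false

noncomputable section

open IsLocalRing Matrix
open scoped Pointwise

namespace Fermat.Agent.TwoAdic

local notation "ℚ̄" => AlgebraicClosure ℚ
local notation "Γℚ" => (AlgebraicClosure ℚ ≃ₐ[ℚ] AlgebraicClosure ℚ)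

open Selmer (CubicRoots)

section Rotations

variable {A : Type} [CommRing A]

/-- The trace of `a + b C` in characteristic two is `b`. -/
theorem trace_rotation (h2 : (2 : A) = 0) (a b : A) :
    (a • (1 : Matrix (Fin 2) (Fin 2) A) + b • rotMat A).trace = b := by
  simp [rotMat, Matrix.trace_fin_two]
  linear_combination a * h2

/-- A rotation of determinant one which is triangular in some basis with lower right entry an
element of square one is that scalar. -/
theorem IsRotation.eq_smul_one {M : Matrix (Fin 2) (Fin 2) A} (hM : IsRotation M)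
    (h2 : (2 : A) = 0) (hdet : M.det = 1) (γ : GL (Fin 2) A) {e : A} (he : e ^ 2 = 1)
    (h10 : ((γ⁻¹).1 * M * γ.1) 1 0 = 0) (h11 : ((γ⁻¹).1 * M * γ.1) 1 1 = e) : M = e • 1 := by
  obtain ⟨a, b, rfl⟩ := hM
  set M := a • (1 : Matrix (Fin 2) (Fin 2) A) + b • rotMat A with hM
  have hd : ((γ⁻¹).1 * M * γ.1).det = 1 := (Matrix.det_units_conj' γ M).trans hdet
  have ht : ((γ⁻¹).1 * M * γ.1).trace = b :=
    (Matrix.trace_units_conj' γ M).trans (trace_rotation h2 a b)
  rw [Matrix.det_fin_two, h10, h11, mul_zero, sub_zero] at hd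
  rw [Matrix.trace_fin_two, h11] at ht
  set x := ((γ⁻¹).1 * M * γ.1) 0 0
  have hb : b = 0 := by
    linear_combination -ht + e * hd - x * he + e * h2
  subst hb
  simp only [zero_smul, add_zero] at hM
  rw [hM, Matrix.mul_smul, mul_one, Matrix.smul_mul, Units.inv_mul, Matrix.smul_apply,
    Matrix.one_apply_eq, smul_eq_mul, mul_one] at h11
  rw [hM, h11]

/-- Two permutations of three letters other than the identity fixing the same one multiply to an
even permutation. -/
theorem sign_mul_eq_one_of_fix {x y : Equiv.Perm (Fin 3)} {i : Fin 3} (hx : x ≠ 1) (hy : y ≠ 1)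
    (hxi : x i = i) (hyi : y i = i) : Equiv.Perm.sign (x * y) = 1 := by
  revert x y i
  decide

/-- Inertia is contained in the decomposition group. -/
theorem mem_decomposition_of_mem_inertia {P : ValuationSubring ℚ̄} {σ : Γℚ}
    (hσ : σ ∈ P.inertiaSubgroupIn ℚ) : σ ∈ P.decompositionSubgroup ℚ := by
  obtain ⟨τ, -, rfl⟩ := hσ
  exact τ.2

end Rotations

variable {T : CubicRoots} {S₀ Q : Finset ℕ} {A : Type} [CommRing A] [IsLocalRing A]
  {pl : SignedPlaces (S₀ ∪ Q)} {r : Γℚ →* Matrix (Fin 2) (Fin 2) A}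
  {u : (S₀ ∪ Q : Finset ℕ) → A}

/-- Inertia in the index two subgroup acts trivially. -/
theorem IsDihedralMat.eq_one_of_mem_inertia (hr' : IsDihedralMat T r)
    (hT : IsDihedralSetup T S₀) (hQ : ∀ q ∈ Q, IsTranspositionPrime T S₀ q)
    (hpl : IsPlaces T pl) (hr : IsSignedMat T pl r u) (h2 : (2 : A) = 0)
    {q : ℕ} (hq : q.Prime) {P : ValuationSubring ℚ̄} (hP : P.LiesOverPrime q) {σ : Γℚ}
    (hσ : σ ∈ P.inertiaSubgroupIn ℚ) (hsign : Equiv.Perm.sign (T.perm σ) = 1) : r σ = 1 := by
  by_cases hqS : q ∈ S₀ ∪ Q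
  · obtain ⟨a, rfl⟩ := Density.exists_smul_eq hq (hpl.liesOver ⟨q, hqS⟩) hP
    obtain ⟨γ, hdec, hin, -⟩ := hr.line ⟨q, hqS⟩
    have hmem := Density.conj_inv_mem_inertiaSubgroupIn hσ
    have hrot : IsRotation (r (a⁻¹ * σ * a)) := hr'.rotation _ (by
      simp [map_mul, map_inv, hsign])
    have h := hrot.eq_smul_one h2 (hr.det _) γ (one_pow 2)
      (hdec _ (mem_decomposition_of_mem_inertia hmem)) (hin _ hmem)
    rw [one_smul] at h
    rw [show σ = a * (a⁻¹ * σ * a) * a⁻¹ by group, map_mul, map_mul, h, mul_one, ← map_mul,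
      mul_inv_cancel, map_one]
  · exact hr.unramified q hq hqS P hP σ hσ

/-- The sign at a bad prime is the value at a Frobenius element of the index two subgroup. -/
theorem IsDihedralMat.exists_eq_smul_one (hr' : IsDihedralMat T r)
    (hT : IsDihedralSetup T S₀) (hQ : ∀ q ∈ Q, IsTranspositionPrime T S₀ q)
    (hpl : IsPlaces T pl) (hr : IsSignedMat T pl r u) (h2 : (2 : A) = 0)
    {v : (S₀ ∪ Q : Finset ℕ)} (hv : (v : ℕ) ∈ S₀) :
    ∃ τ : Γℚ, Equiv.Perm.sign (T.perm τ) = 1 ∧ r τ = u v • (1 : Matrix (Fin 2) (Fin 2) A) := by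
  obtain ⟨γ, hdec, hin, hfrob⟩ := hr.line v
  obtain ⟨i, hi⟩ := hT.decomposition_fix v hv (pl.place v) (hpl.liesOver v)
  obtain ⟨s, hs, hs1⟩ := hT.inertia_ne v hv (pl.place v) (hpl.liesOver v)
  have hF := (hpl.frob v).mem_decompositionSubgroup
  have hsd := mem_decomposition_of_mem_inertia hs
  have hsign : Equiv.Perm.sign (T.perm (pl.frob v * s)) = 1 := by
    rw [map_mul]
    exact sign_mul_eq_one_of_fix (hpl.frob_ne v) hs1 (hi _ hF) (hi _ hsd)
  refine ⟨_, hsign, (hr'.rotation _ hsign).eq_smul_one h2 (hr.det _) γ (hr.sq_eq_one v)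
    (hdec _ (mul_mem hF hsd)) ?_⟩
  have hmul : (γ⁻¹).1 * r (pl.frob v * s) * γ.1 =
      ((γ⁻¹).1 * r (pl.frob v) * γ.1) * ((γ⁻¹).1 * r s * γ.1) := by
    simp only [map_mul, mul_assoc, Units.mul_inv_cancel_left]
  rw [hmul, Matrix.mul_apply, Fin.sum_univ_two, hdec _ hF, hin _ hs, hfrob]
  simp

end Fermat.Agent.TwoAdic

end
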