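import Fermat.Agent.TwoAdic.Dihedral.Setup
import Fermat.Agent.TwoAdic.Universal.Points
import Fermat.Agent.Deformation.Matrix

/-!
# Matrix points of the signed-line ring in characteristic two

Between signed deformations and `IsSignedMat`, and generation: a finite quotient of the universal
ring is generated by the matrix entries of its deformation, in any frame, and the signs.
-/

set_option autoImplicit false

noncomputable section

open IsLocalRing Module Matrix Fermat.Agent.Deformation

namespace Fermat.Agent.TwoAdic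

local notation "ℚ̄" => AlgebraicClosure ℚ
local notation "Γℚ" => (AlgebraicClosure ℚ ≃ₐ[ℚ] AlgebraicClosure ℚ)

open Selmer (CubicRoots)

section Mat

variable (T : CubicRoots)

theorem Selmer.CubicRoots.mat_map {A B : Type} [CommRing A] [CommRing B] (f : A →+* B)
    (σ : Γℚ) : (T.mat A σ).map f = T.mat B σ := by
  ext i j
  simp [Selmer.CubicRoots.mat, apply_ite f]

/-- The coordinates at the first two roots as a basis. -/
def sumZeroBasis (k : Type) [Field k] : Basis (Fin 2) k (sumZero k) :=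
  Basis.ofEquivFun (sumZeroEquiv k)

theorem matOf_residualRep {k : Type} [Field k] (h2 : (2 : k) = 0) (σ : Γℚ) :
    matOf (residualRep T k).ρ (sumZeroBasis k) σ = T.mat k σ := by
  have hneg : (-1 : k) = 1 := by linear_combination -h2
  ext i j
  show LinearMap.toMatrix (sumZeroBasis k) (sumZeroBasis k) (permRep T k σ) i j = _
  have e : LinearMap.toMatrix (sumZeroBasis k) (sumZeroBasis k) (permRep T k σ) i j =
      (((sumZeroEquiv k).symm (Pi.single j 1) : sumZero k) : Fin 3 → k)
        ((T.perm σ).symm i.castSucc) := by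
    rw [LinearMap.toMatrix_apply, sumZeroBasis, Basis.coe_ofEquivFun]
    simp only [Basis.ofEquivFun_repr_apply, Function.comp_apply]
    fin_cases i <;> rfl
  rw [e]
  simp only [Selmer.CubicRoots.mat, Matrix.of_apply]
  generalize (T.perm σ).symm i.castSucc = m
  change (![(Pi.single j (1 : k) : Fin 2 → k) 0, (Pi.single j (1 : k) : Fin 2 → k) 1,
    -((Pi.single j (1 : k) : Fin 2 → k) 0 + (Pi.single j (1 : k) : Fin 2 → k) 1)] : Fin 3 → k) m = _
  fin_cases m <;> fin_cases j <;> simp [hneg]

end Mat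

section Local

variable {A : Type} [CommRing A] [IsLocalRing A]

theorem residue_two_eq_zero (h2 : (2 : A) = 0) : (2 : ResidueField A) = 0 := by
  rw [← map_ofNat (residue A) 2, h2, map_zero]

/-- In a finite local ring a power of the maximal ideal vanishes. -/
theorem exists_maximalIdeal_pow_eq_bot_of_finite [Finite A] : ∃ k : ℕ, maximalIdeal A ^ k = ⊥ := by
  have : IsArtinianRing A := inferInstance
  obtain ⟨k, hk⟩ := IsArtinianRing.isNilpotent_jacobson_bot (R := A)
  exact ⟨k, by rw [← IsLocalRing.jacobson_eq_maximalIdeal ⊥ bot_ne_top]; exact hk⟩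

theorem factors_of_isCont [Finite A] {r : Γℚ →* Mat A} (hr : IsCont r) :
    GaloisFactorsThroughFiniteLevel r := by
  obtain ⟨k, hk⟩ := exists_maximalIdeal_pow_eq_bot_of_finite (A := A)
  obtain ⟨L, hL, h1⟩ := hr k
  refine ⟨L, hL, fun σ hσ => sub_eq_zero.mp (Matrix.ext fun i j => ?_)⟩
  have := h1 σ hσ i j
  rwa [hk, Ideal.mem_bot] at this

variable [Algebra ℤ_[2] A] [IsLocalHom (algebraMap ℤ_[2] A)]

/-- In characteristic two a cyclotomic determinant is `1`. -/
theorem det_eq_one_of_detIsCyclotomic {ρ : GaloisRepAdic A} (h : ρ.DetIsCyclotomic 2)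
    (h2 : (2 : A) = 0) (σ : Γℚ) : LinearMap.det (ρ.ρ σ) = 1 := by
  have := h.2 1 σ 1 fun μ hμ => by
    rw [pow_one] at hμ ⊢
    rcases sq_eq_one_iff.mp hμ with rfl | rfl
    · exact map_one σ
    · rw [map_neg, map_one]
  rw [pow_one, Nat.cast_ofNat, h2, Ideal.span_singleton_eq_bot.mpr rfl, Ideal.mem_bot, Nat.cast_one,
    sub_eq_zero] at this
  exact this

end Local

section Convert

variable {A : Type} [CommRing A] [IsLocalRing A] {T : CubicRoots} {S : Finset ℕ}
  {pl : SignedPlaces S} {r : Γℚ →* Mat A} {u : S → A}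

/-- A signed deformation, in a basis reducing to `T`, gives a signed matrix deformation. -/
theorem isSignedMat_of_isSignedType [Finite A] [Algebra ℤ_[2] A]
    [IsLocalHom (algebraMap ℤ_[2] A)] (h2 : (2 : A) = 0) {ρ : GaloisRepAdic A}
    (h : IsSignedType pl ρ u) (b : Basis (Fin 2) A ρ.V)
    (hres : ∀ σ, (matOf ρ.ρ b σ).map (residue A) = (T.mat A σ).map (residue A)) :
    IsSignedMat T pl (matOf ρ.ρ b) u where
  factors := factors_of_isCont (isCont_matOf ρ b)
  residual := hres
  det σ := by rw [matOf_apply, LinearMap.det_toMatrix, det_eq_one_of_detIsCyclotomic h.det h2]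
  unramified q hq hqS P hP σ hσ := by
    rw [matOf_apply, h.unramified q hq hqS P hP σ hσ, LinearMap.toMatrix_one]
  sq_eq_one := h.sq_eq_one
  line v := by
    obtain ⟨b₁, hD, hI, -, hF⟩ := hasSignedLineAt_iff_basis.mp (h.line v)
    obtain ⟨w, hw⟩ := exists_conj_of_basis ρ.ρ b₁ b
    have e : ∀ σ, ((w⁻¹ : GL (Fin 2) A) : Mat A) * matOf ρ.ρ b σ * (w : Mat A) =
        matOf ρ.ρ b₁ σ := fun σ => by
      rw [mul_assoc, ← hw σ, ← mul_assoc, Units.inv_mul, one_mul]
    exact ⟨w, fun σ hσ => by rw [e]; exact hD σ hσ, fun σ hσ => by rw [e]; exact (hI σ hσ).2,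
      by rw [e]; exact hF⟩

/-- A signed matrix deformation satisfies the line equations. -/
theorem hasSignedLineAt_repOf (hr : IsSignedMat T pl r u) (hc : IsCont r) (v : S)
    (hF : pl.frob v ∈ (pl.place v).decompositionSubgroup ℚ) :
    HasSignedLineAt (repOf r hc) (pl.place v) (pl.frob v) (u v) := by
  obtain ⟨γ, hD, hI, hu⟩ := hr.line v
  let b' : Basis (Fin 2) A (repOf r hc).V :=
    (Deformation.stdBasis r hc).map (LinearEquiv.ofLinearMap (Matrix.toLin' (γ : Mat A))
      (Matrix.toLin' ((γ⁻¹ : GL (Fin 2) A) : Mat A))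
      ((Matrix.toLin'_mul _ _).symm.trans (by rw [Units.mul_inv, Matrix.toLin'_one]; rfl))
      ((Matrix.toLin'_mul _ _).symm.trans (by rw [Units.inv_mul, Matrix.toLin'_one]; rfl)))
  have hb' : ∀ σ, matOf (repOf r hc).ρ b' σ =
      ((γ⁻¹ : GL (Fin 2) A) : Mat A) * r σ * (γ : Mat A) := by
    intro σ
    refine Matrix.ext fun i j => ?_
    rw [matOf_apply, LinearMap.toMatrix_apply]
    simp only [b', Basis.map_apply, Basis.map_repr, LinearEquiv.trans_apply]
    change (Pi.basisFun A (Fin 2)).repr (Matrix.toLin' ((γ⁻¹ : GL (Fin 2) A) : Mat A)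
      (Matrix.toLin' (r σ) (Matrix.toLin' (γ : Mat A) (Pi.basisFun A (Fin 2) j)))) i = _
    simp only [Pi.basisFun_repr, Pi.basisFun_apply, Matrix.toLin'_apply, Matrix.mulVec_mulVec,
      Matrix.mulVec_single_one]
    simp [Matrix.mul_apply, Matrix.mulVec, dotProduct]
  refine hasSignedLineAt_iff_basis.mpr ⟨b', fun σ hσ => by rw [hb']; exact hD σ hσ,
    fun σ hσ => ?_, by rw [hb']; exact hD _ hF, by rw [hb']; exact hu⟩
  rw [hb']
  refine ⟨hD σ ?_, hI σ hσ⟩
  obtain ⟨τ, -, rfl⟩ := hσ
  exact τ.2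

end Convert

end Fermat.Agent.TwoAdic

end
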