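import Fermat.Agent.TwoAdic.Dihedral.Count
import Fermat.Agent.TwoAdic.Dihedral.Induction
import Fermat.Agent.TwoAdic.Dihedral.Local
import Fermat.Agent.TwoAdic.Dihedral.Points

/-!
# The dihedral bound on the reduction modulo 2 of the universal ring

A finite quotient of characteristic two of the universal ring carries a deformation in normal
form and is generated by its entries and signs, so it has at most `2 ^ B` elements, where
`B = h₂ · 2 ^ |Q|`; by Nakayama so does `R / 2`.
-/

set_option autoImplicit false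

noncomputable section

open NumberField IsLocalRing Module Matrix Fermat.Agent.Deformation

namespace Fermat.Agent.TwoAdic

local notation "ℚ̄" => AlgebraicClosure ℚ
local notation "Γℚ" => (AlgebraicClosure ℚ ≃ₐ[ℚ] AlgebraicClosure ℚ)
local notation "k₂" => ResidueField ℤ_[2]

open Selmer (CubicRoots)

/-- Only the identity has identity matrix. -/
theorem Selmer.CubicRoots.perm_eq_one_of_mat (T : CubicRoots) {k : Type} [Field k] {σ : Γℚ}
    (h : T.mat k σ = 1) : T.perm σ = 1 := by
  have key : ∀ p : Equiv.Perm (Fin 3),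
      (∀ i j : Fin 2, (p.symm i.castSucc = 2 ∨ p.symm i.castSucc = j.castSucc) ↔ i = j) → p = 1 := by
    decide
  refine key _ fun i j => ?_
  have := congrFun (congrFun h i) j
  simp only [Selmer.CubicRoots.mat, Matrix.of_apply, Matrix.one_apply] at this
  by_cases h1 : (T.perm σ).symm i.castSucc = 2 ∨ (T.perm σ).symm i.castSucc = j.castSucc <;>
    by_cases h2 : i = j <;> simp_all

/-- A nontrivial matrix minus the identity has a nonzero column. -/
theorem exists_pivot_ne_zero {k : Type} [Field k] {M : Mat k} (h : M ≠ 1) :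
    ∃ j i, pivot M 1 j i ≠ 0 := by
  by_contra hall
  push Not at hall
  refine h (Matrix.ext fun i j => sub_eq_zero.mp ?_)
  have := hall j i
  rwa [pivot, one_smul, Matrix.sub_apply] at this

section Generation

variable {T : CubicRoots} {S : Finset ℕ} {pl : SignedPlaces S}
  (D : SignedRingData (rhoBar T) pl) {A : Type} [CommRing A] [IsLocalRing A] [Finite A]
  [Algebra ℤ_[2] A] [IsLocalHom (algebraMap ℤ_[2] A)]

/-- A finite quotient of the universal ring in characteristic two is generated by the entries of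
its deformation, in any adapted frame, and by the signs. -/
theorem closure_entries_eq_top (hpl : IsPlaces T pl) (h2 : (2 : A) = 0) (π : D.R →ₐ[ℤ_[2]] A)
    (hπ : Function.Surjective π) (hπl : IsLocalHom (π : D.R →+* A))
    (b : Basis (Fin 2) D.R D.ρ.V) (g : GL (Fin 2) A) {r' : Γℚ →* Mat A}
    (hr' : ∀ σ, r' σ = ((g⁻¹ : GL (Fin 2) A) : Mat A) *
      mapRep (π : D.R →+* A) (matOf D.ρ.ρ b) σ * (g : Mat A))
    (hs : IsSignedMat T pl r' fun v => π (D.u v)) :
    Subring.closure ({x : A | ∃ σ i j, x = r' σ i j} ∪ Set.range fun v => π (D.u v)) = ⊤ := by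
  set C := Subring.closure ({x : A | ∃ σ i j, x = r' σ i j} ∪ Set.range fun v => π (D.u v))
  have hscal : ∀ c : ℤ_[2], algebraMap ℤ_[2] A c ∈ C := by
    intro c
    obtain ⟨-, hc⟩ := PadicInt.zmodRepr_spec c
    rw [PadicInt.maximalIdeal_eq_span_p, Ideal.mem_span_singleton'] at hc
    obtain ⟨d, hd⟩ := hc
    have : algebraMap ℤ_[2] A c = (PadicInt.zmodRepr c : A) := by
      have := congrArg (algebraMap ℤ_[2] A) hd
      rw [map_mul, map_sub, map_natCast, map_natCast, Nat.cast_ofNat, h2, mul_zero, eq_comm,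
        sub_eq_zero] at this
      exact this
    rw [this]
    exact natCast_mem C _
  let A₀ : Subalgebra ℤ_[2] A := { C.toSubsemiring with algebraMap_mem' := hscal }
  have hent : ∀ σ i j, r' σ i j ∈ A₀ := fun σ i j =>
    Subring.subset_closure (Or.inl ⟨σ, i, j, rfl⟩)
  have hu : ∀ v, π (D.u v) ∈ A₀ := fun v => Subring.subset_closure (Or.inr ⟨v, rfl⟩)
  -- units and residues
  have hunit : ∀ x : A₀, IsUnit (x : A) → IsUnit x := by
    intro x hx
    have hinj : Function.Injective fun y : A₀ => x * y := fun y z h =>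
      Subtype.ext (hx.mul_left_cancel (congrArg Subtype.val h))
    obtain ⟨y, hy⟩ := (Finite.injective_iff_surjective.mp hinj) 1
    exact IsUnit.of_mul_eq_one y hy
  have : IsLocalRing A₀ := IsLocalRing.of_isUnit_or_isUnit_one_sub_self fun x =>
    (IsLocalRing.isUnit_or_isUnit_one_sub_self (x : A)).imp (hunit x) (hunit (1 - x))
  have hval : IsLocalHom (A₀.val : A₀ →+* A) := ⟨fun x hx => hunit x hx⟩
  have : IsLocalHom (algebraMap ℤ_[2] A₀) := ⟨fun z hz =>
    (isUnit_map_iff (algebraMap ℤ_[2] A) z).mp (hz.map (A₀.val : A₀ →+* A))⟩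
  have : Module.Finite ℤ_[2] A₀ := Module.Finite.of_finite
  have : IsNoetherianRing A₀ := IsNoetherianRing.of_finite ℤ_[2] _
  have : IsAdicComplete (maximalIdeal A₀) A₀ :=
    IsLocalRing.isAdicComplete_of_module_finite (𝒪 := ℤ_[2])
  have hresA : ∀ x : A, ∃ c : ℤ_[2], x - algebraMap ℤ_[2] A c ∈ maximalIdeal A := by
    intro x
    obtain ⟨y, rfl⟩ := hπ x
    obtain ⟨c, hc⟩ := D.residue_surjective (residue D.R y)
    refine ⟨c, ?_⟩
    rw [← π.commutes, ← map_sub]
    refine map_nonunit (π : D.R →+* A) _ ?_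
    rw [← residue_eq_zero_iff, map_sub, sub_eq_zero]
    exact hc.symm
  have hres₀ : Function.Surjective (residue A₀ ∘ algebraMap ℤ_[2] A₀) := by
    intro z
    obtain ⟨x, rfl⟩ := residue_surjective z
    obtain ⟨c, hc⟩ := hresA x
    refine ⟨c, (sub_eq_zero.mp ?_).symm⟩
    rw [Function.comp_apply, ← map_sub, residue_eq_zero_iff, IsLocalRing.mem_maximalIdeal,
      mem_nonunits_iff]
    exact fun h => hc (h.map (A₀.val : A₀ →+* A))
  -- the deformation over `A₀`
  let r₀ : Γℚ →* Mat A₀ :=
    { toFun := fun σ => Matrix.of fun i j => ⟨r' σ i j, hent σ i j⟩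
      map_one' := by
        refine Matrix.ext fun i j => Subtype.ext ?_
        show r' 1 i j = _
        rw [map_one, Matrix.one_apply, Matrix.one_apply]
        split <;> rfl
      map_mul' := fun σ τ => by
        refine Matrix.ext fun i j => Subtype.ext ?_
        show r' (σ * τ) i j = _
        rw [map_mul, Matrix.mul_apply, Matrix.mul_apply]
        simp }
  have hr₀ : mapRep (A₀.val : A₀ →+* A) r₀ = r' := MonoidHom.ext fun σ => Matrix.ext fun i j => rfl
  have hfac : GaloisFactorsThroughFiniteLevel r₀ := by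
    obtain ⟨L, hL, h1⟩ := hs.factors
    refine ⟨L, hL, fun σ hσ => Matrix.ext fun i j => Subtype.ext ?_⟩
    show r' σ i j = _
    rw [h1 σ hσ, Matrix.one_apply, Matrix.one_apply]
    split <;> rfl
  have hc₀ := IsCont.of_factors r₀ hfac
  let u₀ : S → A₀ := fun v => ⟨π (D.u v), hu v⟩
  let ψ₀ : k₂ →+* ResidueField A₀ := ResidueField.map (algebraMap ℤ_[2] A₀)
  have h2k : (2 : k₂) = 0 := by
    rw [← map_ofNat (residue ℤ_[2]) 2, residue_eq_zero_iff, PadicInt.maximalIdeal_eq_span_p]
    exact Ideal.mem_span_singleton_self _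
  -- the residual matrices
  have hres : mapRep (residue A₀) r₀ =
      mapRep ψ₀ (matOf (rhoBar T).ρ (sumZeroBasis k₂)) := by
    refine MonoidHom.ext fun σ => ?_
    have e : matOf (rhoBar T).ρ (sumZeroBasis k₂) σ = T.mat k₂ σ := matOf_residualRep T h2k σ
    rw [mapRep_apply, mapRep_apply, e, T.mat_map, ← T.mat_map (residue A₀) (A := A₀)]
    refine Matrix.ext fun i j => ?_
    apply (ResidueField.map (A₀.val : A₀ →+* A)).injective
    rw [Matrix.map_apply, Matrix.map_apply, ResidueField.map_residue, ResidueField.map_residue]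
    have := congrFun (congrFun (hs.residual σ) i) j
    rw [Matrix.map_apply, Matrix.map_apply] at this
    refine this.trans (congrArg _ ?_)
    simp [Selmer.CubicRoots.mat, apply_ite (A₀.val : A₀ →+* A)]
  have h2₀ : (2 : A₀) = 0 := Subtype.ext h2
  have htype : IsSignedType pl (repOf r₀ hc₀) u₀ := by
    have hm : matOf (repOf r₀ hc₀).ρ (Deformation.stdBasis r₀ hc₀) = r₀ := matOf_repOf r₀ hc₀
    refine ⟨⟨?_, fun n σ a ha => ?_⟩, fun q hq hqS P hP σ hσ => ?_, fun v => ?_, fun v => ?_⟩
    · rw [Nat.cast_ofNat, h2₀]; exact zero_mem _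
    · rcases Nat.eq_zero_or_pos n with rfl | hn
      · simp [Ideal.span_singleton_one]
      have hodd : Odd a := by
        rcases Nat.even_or_odd a with he | ho
        · exfalso
          have h := ha (-1) (by rw [Even.neg_one_pow (Nat.even_pow.mpr ⟨even_two, hn.ne'⟩)])
          rw [map_neg, map_one, he.neg_one_pow] at h
          exact absurd h (by norm_num)
        · exact ho
      have hdet : LinearMap.det ((repOf r₀ hc₀).ρ σ) = 1 := by
        rw [← LinearMap.det_toMatrix (Deformation.stdBasis r₀ hc₀), ← matOf_apply, hm]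
        refine Subtype.ext ?_
        have := RingHom.map_det (A₀.val : A₀ →+* A) (r₀ σ)
        rw [RingHom.mapMatrix_apply, ← mapRep_apply, hr₀, hs.det] at this
        exact this
      obtain ⟨c, rfl⟩ := hodd
      rw [hdet, Nat.cast_add, Nat.cast_mul, Nat.cast_ofNat, h2₀, zero_mul, zero_add, Nat.cast_one,
        sub_self]
      exact zero_mem _
    · have : matOf (repOf r₀ hc₀).ρ (Deformation.stdBasis r₀ hc₀) σ = 1 := by
        rw [hm]
        refine Matrix.ext fun i j => Subtype.ext ?_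
        show r' σ i j = _
        rw [hs.unramified q hq hqS P hP σ hσ, Matrix.one_apply, Matrix.one_apply]
        split <;> rfl
      rw [matOf_apply, ← LinearMap.toMatrix_one (Deformation.stdBasis r₀ hc₀)] at this
      exact (LinearMap.toMatrix _ _).injective this
    · exact Subtype.ext (hs.sq_eq_one v)
    · obtain ⟨j, i, hij⟩ := exists_pivot_ne_zero (M := T.mat k₂ (pl.frob v))
        fun h => hpl.frob_ne v (T.perm_eq_one_of_mat h)
      have hij' : pivot (matOf (rhoBar T).ρ (sumZeroBasis k₂) (pl.frob v)) 1 j i ≠ 0 := by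
        rw [matOf_residualRep T h2k]; exact hij
      have hu1 : residue A₀ (u₀ v) = 1 := residue_eq_one_of_sq_eq_one (Subtype.ext (hs.sq_eq_one v))
      obtain ⟨i', hi'⟩ := exists_isUnit_pivot ψ₀ hres hu1 hij'
      refine (hasSignedLineAt_iff (Deformation.stdBasis r₀ hc₀) (j := j)
        (by rw [hm]; exact ⟨i', hi'⟩)).mpr ?_
      rw [hm]
      intro x hx
      refine Subtype.ext ((map_lineVals_eq_zero_iff (A₀.val : A₀ →+* A)).mpr ?_ x hx)
      rw [hr₀]
      have hc' := IsCont.of_factors r' hs.factors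
      have hline := hasSignedLineAt_repOf hs hc' v (hpl.frob v).mem_decompositionSubgroup
      have hw : IsUnit (pivot (r' (pl.frob v)) (π (D.u v)) j i') := by
        have h := hi'.map (A₀.val : A₀ →+* A)
        have e := congrFun (map_pivot (A₀.val : A₀ →+* A) (r₀ (pl.frob v)) (u₀ v) j) i'
        rw [Function.comp_apply, ← mapRep_apply, hr₀] at e
        rw [e] at h
        exact h
      have hvals := (hasSignedLineAt_iff (Deformation.stdBasis r' hc') (j := j)
        (by rw [matOf_repOf]; exact ⟨i', hw⟩)).mp hline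
      rwa [matOf_repOf] at hvals
  have hequiv : (repOf r₀ hc₀).residual.IsEquiv ((rhoBar T).baseChangeAlong ψ₀) :=
    residual_isEquiv_of_map_eq (rhoBar T) (sumZeroBasis k₂) _ (Deformation.stdBasis r₀ hc₀) ψ₀
      (by rw [matOf_repOf]; exact hres)
  -- uniqueness of the point over `A`
  let φ := D.classify hres₀ (repOf r₀ hc₀) u₀ htype hequiv
  have hφl : IsLocalHom (φ : D.R →+* A₀) := D.isLocalHom_classify _ _ _ _ _
  have hA : Function.Surjective (residue A ∘ algebraMap ℤ_[2] A) := by
    intro z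
    obtain ⟨x, rfl⟩ := residue_surjective z
    obtain ⟨c, hc⟩ := hresA x
    exact ⟨c, (sub_eq_zero.mp (by rw [Function.comp_apply, ← map_sub]; exact (residue_eq_zero_iff _).mpr hc)).symm⟩
  have hc' := IsCont.of_factors r' hs.factors
  have hπu := D.isSignedType_map (π : D.R →+* A) hπl
  have hresπ : (D.ρ.baseChangeAlong (π : D.R →+* A) hπl).residual.IsEquiv
      ((rhoBar T).baseChangeAlong (ResidueField.map (algebraMap ℤ_[2] A))) := by
    obtain ⟨e1⟩ := baseChangeAlong_isEquiv_repOf D.ρ b (π : D.R →+* A) hπl rfl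
      ((isCont_matOf D.ρ b).mapRep _ hπl)
    obtain ⟨e2⟩ := isEquiv_repOf_of_conj ((isCont_matOf D.ρ b).mapRep _ hπl) hc' g⁻¹
      (fun σ => by rw [hr' σ, mul_assoc, Units.mul_inv, mul_one])
    have h0 : (repOf r' hc').residual.IsEquiv
        ((rhoBar T).baseChangeAlong (ResidueField.map (algebraMap ℤ_[2] A))) := by
      refine residual_isEquiv_of_map_eq (rhoBar T) (sumZeroBasis k₂) _
        (Deformation.stdBasis r' hc') _ ?_
      rw [matOf_repOf]
      refine MonoidHom.ext fun σ => ?_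
      rw [mapRep_apply, mapRep_apply, hs.residual σ, matOf_residualRep T h2k, T.mat_map, T.mat_map]
    obtain ⟨e3⟩ := h0
    exact ⟨((e1.trans e2).residual).trans e3⟩
  have e1 : π = D.classify hA _ _ hπu hresπ :=
    D.eq_classify hA _ _ hπu hresπ π hπl ⟨GaloisRepAdic.Equiv.refl _⟩ fun v => rfl
  have hcomp : IsLocalHom ((A₀.val.comp φ : D.R →ₐ[ℤ_[2]] A) : D.R →+* A) :=
    ⟨fun x hx => hφl.map_nonunit x (hval.map_nonunit _ hx)⟩
  have e2 : A₀.val.comp φ = D.classify hA _ _ hπu hresπ := by
    refine D.eq_classify hA _ _ hπu hresπ _ hcomp ?_ fun v => ?_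
    · obtain ⟨b₀, hb₀⟩ := exists_basis_baseChangeAlong D.ρ b (φ : D.R →+* A₀) hφl
      obtain ⟨c₀, hc₀'⟩ := exists_conj_of_isEquiv (D.classify_isEquiv hres₀ _ _ htype hequiv) b₀
        (Deformation.stdBasis r₀ hc₀)
      obtain ⟨f1⟩ := baseChangeAlong_isEquiv_repOf D.ρ b
        ((A₀.val.comp φ : D.R →ₐ[ℤ_[2]] A) : D.R →+* A) hcomp rfl
        ((isCont_matOf D.ρ b).mapRep _ hcomp)
      obtain ⟨f2⟩ := baseChangeAlong_isEquiv_repOf D.ρ b (π : D.R →+* A) hπl rfl
        ((isCont_matOf D.ρ b).mapRep _ hπl)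
      suffices hconj : ∀ σ,
          ((g * Units.map (A₀.val : A₀ →+* A).mapMatrix.toMonoidHom c₀ : GL (Fin 2) A) : Mat A) *
              mapRep ((A₀.val.comp φ : D.R →ₐ[ℤ_[2]] A) : D.R →+* A) (matOf D.ρ.ρ b) σ =
            mapRep (π : D.R →+* A) (matOf D.ρ.ρ b) σ *
              ((g * Units.map (A₀.val : A₀ →+* A).mapMatrix.toMonoidHom c₀ : GL (Fin 2) A) :
                Mat A) by
        obtain ⟨f3⟩ := isEquiv_repOf_of_conj ((isCont_matOf D.ρ b).mapRep _ hcomp)
          ((isCont_matOf D.ρ b).mapRep _ hπl) _ hconj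
        exact ⟨(f1.trans f3).trans f2.symm⟩
      intro σ
      have h3 := congrArg (A₀.val : A₀ →+* A).mapMatrix (hc₀' σ)
      rw [hb₀, matOf_repOf, map_mul, map_mul] at h3
      simp only [RingHom.mapMatrix_apply, ← mapRep_apply, mapRep_mapRep, hr₀] at h3
      rw [hr' σ] at h3
      rw [Units.val_mul, mul_assoc]
      refine (congrArg (fun M => (g : Mat A) * M) h3).trans ?_
      rw [← mul_assoc, ← mul_assoc, ← mul_assoc, Units.mul_inv, one_mul, Units.coe_map]
      simp [mul_assoc]
    · exact congrArg A₀.val (D.classify_u hres₀ _ _ htype hequiv v)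
  refine eq_top_iff.mpr fun x _ => ?_
  obtain ⟨y, rfl⟩ := hπ x
  rw [e1, ← e2]
  exact (φ y).2

end Generation

/-- If the Selmer group vanishes, `R/2` is spanned by `h₂ · 2 ^ |Q|` elements. -/
theorem exists_generators_mod_two {T : CubicRoots} {S₀ Q : Finset ℕ} (hT : IsDihedralSetup T S₀)
    (K : IntermediateField ℚ ℚ̄) [NumberField K] [IsTotallyComplex K]
    (hK : ∀ σ : Γℚ, σ ∈ K.fixingSubgroup ↔ Equiv.Perm.sign (T.perm σ) = 1)
    (hQ : ∀ q ∈ Q, IsTranspositionPrime T S₀ q) (hvan : T.SelmerVanishes (S₀ ∪ Q))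
    {pl : SignedPlaces (S₀ ∪ Q)} (hpl : IsPlaces T pl) (D : SignedRingData (rhoBar T) pl) :
    ∃ b : Fin (2 ^ padicValNat 2 (Nat.card (ClassGroup (𝓞 K))) * 2 ^ Q.card) → D.R,
      ∀ x : D.R, ∃ c : _ → ℤ_[2], x - ∑ i, c i • b i ∈ Ideal.span {(2 : D.R)} := by
  classical
  set B := 2 ^ padicValNat 2 (Nat.card (ClassGroup (𝓞 K))) * 2 ^ Q.card
  set I : Ideal D.R := Ideal.span {(2 : D.R)}
  set m := maximalIdeal D.R
  have hI : I ≤ m := (Ideal.span_singleton_le_iff_mem _).mpr two_mem_maximalIdeal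
  have h2k : (2 : k₂) = 0 := by
    rw [← map_ofNat (residue ℤ_[2]) 2, residue_eq_zero_iff, PadicInt.maximalIdeal_eq_span_p]
    exact Ideal.mem_span_singleton_self _
  obtain ⟨b₀, hb₀⟩ := exists_lift_basis (rhoBar T) (sumZeroBasis k₂) D.ρ _ D.residual_isEquiv
  -- the quotient by `I ⊔ m ^ (k + 1)`
  have hlevel : ∀ k : ℕ, Finite (D.R ⧸ (I ⊔ m ^ (k + 1))) ∧
      Nat.card (D.R ⧸ (I ⊔ m ^ (k + 1))) ≤ 2 ^ B ∧
      ∃ b : Fin B → D.R ⧸ (I ⊔ m ^ (k + 1)), ∀ x, x ∈ AddSubgroup.closure (Set.range b) := by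
    intro k
    set J := I ⊔ m ^ (k + 1)
    have hJm : J ≤ m := sup_le hI (Ideal.pow_le_self k.succ_ne_zero)
    have : Finite (ResidueField D.R) := by
      refine Finite.of_surjective (fun z : ZMod 2 => ((z.val : ℕ) : ResidueField D.R)) fun z => ?_
      obtain ⟨c, rfl⟩ := D.residue_surjective z
      obtain ⟨hlt, hc⟩ := PadicInt.zmodRepr_spec c
      refine ⟨(PadicInt.zmodRepr c : ZMod 2), ?_⟩
      show (((PadicInt.zmodRepr c : ZMod 2).val : ℕ) : ResidueField D.R) = _
      have e := (residue_eq_zero_iff _).mpr (map_nonunit (algebraMap ℤ_[2] D.R) _ hc)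
      rw [map_sub, map_sub, map_natCast, map_natCast, sub_eq_zero] at e
      rw [ZMod.val_cast_of_lt hlt]
      exact e.symm
    have : Finite (D.R ⧸ m) := this
    have hfinm : Finite (D.R ⧸ m ^ (k + 1)) :=
      Ideal.finite_quotient_pow (IsNoetherian.noetherian m) (k + 1)
    have : Finite (D.R ⧸ J) :=
      Finite.of_surjective _ (Ideal.Quotient.factor_surjective (le_sup_right : m ^ (k + 1) ≤ J))
    have : Nontrivial (D.R ⧸ J) := Ideal.Quotient.nontrivial_iff.mpr fun h =>
      (maximalIdeal.isMaximal D.R).ne_top (top_le_iff.mp (h ▸ hJm))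
    have : IsLocalRing (D.R ⧸ J) := IsLocalRing.of_surjective' _ Ideal.Quotient.mk_surjective
    let π : D.R →ₐ[ℤ_[2]] D.R ⧸ J := Ideal.Quotient.mkₐ ℤ_[2] J
    have hπl : IsLocalHom (π : D.R →+* D.R ⧸ J) :=
      IsLocalHom.of_surjective _ Ideal.Quotient.mk_surjective
    have : IsLocalHom (algebraMap ℤ_[2] (D.R ⧸ J)) := ⟨fun c hc => by
      rw [← π.commutes] at hc
      exact IsUnit.of_map (algebraMap ℤ_[2] D.R) c (hπl.map_nonunit _ hc)⟩
    have h2 : (2 : D.R ⧸ J) = 0 := by
      rw [← map_ofNat (Ideal.Quotient.mk J) 2, Ideal.Quotient.eq_zero_iff_mem]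
      exact Ideal.mem_sup_left (Ideal.mem_span_singleton_self _)
    have hA : ∀ a : D.R ⧸ J, a ∈ maximalIdeal _ ∨ a - 1 ∈ maximalIdeal _ := by
      intro a
      by_contra! h
      rw [IsLocalRing.notMem_maximalIdeal, IsLocalRing.notMem_maximalIdeal] at h
      obtain ⟨y, rfl⟩ := Ideal.Quotient.mk_surjective a
      rw [← map_one (Ideal.Quotient.mk J), ← map_sub] at h
      have hy := hπl.map_nonunit y h.1
      have hy1 := hπl.map_nonunit (y - 1) h.2
      obtain ⟨c, hc⟩ := D.residue_surjective (residue D.R y)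
      obtain ⟨-, hc2⟩ := PadicInt.zmodRepr_spec c
      have hlt : PadicInt.zmodRepr c < 2 := PadicInt.zmodRepr_lt_p c
      have e : residue D.R y = (PadicInt.zmodRepr c : ResidueField D.R) := by
        rw [← hc, Function.comp_apply, ← sub_eq_zero, ← map_natCast (residue D.R), ← map_sub,
          ← map_natCast (algebraMap ℤ_[2] D.R), ← map_sub, residue_eq_zero_iff]
        exact map_nonunit _ _ hc2
      interval_cases PadicInt.zmodRepr c
      · rw [Nat.cast_zero, residue_eq_zero_iff] at e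
        exact e hy
      · rw [Nat.cast_one, ← map_one (residue D.R), ← sub_eq_zero, ← map_sub,
          residue_eq_zero_iff] at e
        exact e hy1
    let r := mapRep (π : D.R →+* D.R ⧸ J) (matOf D.ρ.ρ b₀)
    obtain ⟨b₁, hb₁⟩ := exists_basis_baseChangeAlong D.ρ b₀ (π : D.R →+* D.R ⧸ J) hπl
    have hrmat : IsSignedMat T pl r fun v => π (D.u v) := by
      have h := isSignedMat_of_isSignedType (T := T) h2
        (D.isSignedType_map (π : D.R →+* D.R ⧸ J) hπl) b₁ fun σ => by
          rw [hb₁, mapRep_apply, T.mat_map]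
          have e := congrArg (fun M => M.map (ResidueField.map (π : D.R →+* D.R ⧸ J)))
            (DFunLike.congr_fun hb₀ σ)
          simp only [mapRep_apply, Matrix.map_map] at e
          rw [Matrix.map_map]
          refine (Eq.trans ?_ e).trans ?_
          · exact congrArg (Matrix.map _) (funext fun x => (ResidueField.map_residue _ x).symm)
          · have e' : matOf (rhoBar T).ρ (sumZeroBasis k₂) σ = T.mat k₂ σ :=
              matOf_residualRep T h2k σ
            rw [← Matrix.map_map, e', T.mat_map, T.mat_map]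
      rwa [hb₁] at h
    obtain ⟨g, r', -, hr', hdih, hs⟩ := exists_conj_isDihedralMat hT hQ hvan hpl (D.R ⧸ J) h2 hA r
      (fun v => π (D.u v)) hrmat
    obtain ⟨b, hb⟩ := exists_span_entries hT K hK h2 hA hs hdih
      (fun q hq P hP σ hσ hsg => hdih.eq_one_of_mem_inertia hT hQ hpl hs h2 hq hP hσ hsg)
      (fun v hv => hdih.exists_eq_smul_one hT hQ hpl hs h2 hv)
    have htop := closure_entries_eq_top D hpl h2 π Ideal.Quotient.mk_surjective hπl b₀ g hr' hs
    have hall : ∀ x, x ∈ AddSubgroup.closure (Set.range b) := fun x =>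
      hb x (htop ▸ Subring.mem_top x)
    refine ⟨inferInstance, ?_, b, hall⟩
    let : Module (ZMod 2) (D.R ⧸ J) := AddCommGroup.zmodModule fun a => by
      rw [nsmul_eq_mul, Nat.cast_ofNat, h2, zero_mul]
    have hsurj : Function.Surjective (Fintype.linearCombination (ZMod 2) b) := by
      rw [← LinearMap.range_eq_top, Fintype.range_linearCombination, eq_top_iff]
      intro x _
      exact (AddSubgroup.closure_le (K := (Submodule.span (ZMod 2) (Set.range b)).toAddSubgroup)).mpr
        Submodule.subset_span (hall x)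
    refine (Nat.card_le_card_of_surjective _ hsurj).trans_eq ?_
    simp [B, Nat.card_eq_fintype_card]
  -- stabilisation
  obtain ⟨k, hk⟩ : ∃ k, I ⊔ m ^ (k + 1) = I ⊔ m ^ (k + 2) := by
    by_contra! hne
    have hstrict : ∀ k, Nat.card (D.R ⧸ (I ⊔ m ^ (k + 1))) <
        Nat.card (D.R ⧸ (I ⊔ m ^ (k + 2))) := by
      intro k
      have hle : I ⊔ m ^ (k + 2) ≤ I ⊔ m ^ (k + 1) :=
        sup_le_sup_left (Ideal.pow_le_pow_right (by omega)) _
      have := (hlevel (k + 1)).1
      refine lt_of_le_of_ne (Nat.card_le_card_of_surjective _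
        (Ideal.Quotient.factor_surjective hle)) fun he => hne k (le_antisymm ?_ hle)
      intro x hx
      have hbij := (Nat.bijective_iff_surjective_and_card (Ideal.Quotient.factor hle)).mpr
        ⟨Ideal.Quotient.factor_surjective hle, he.symm⟩
      rw [← Ideal.Quotient.eq_zero_iff_mem]
      refine hbij.1 ?_
      rw [Ideal.Quotient.factor_mk, map_zero, Ideal.Quotient.eq_zero_iff_mem]
      exact hx
    have hgrow : ∀ k, k ≤ Nat.card (D.R ⧸ (I ⊔ m ^ (k + 1))) := by
      intro k
      induction k with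
      | zero => exact Nat.zero_le _
      | succ k ih => exact Nat.succ_le_of_lt (ih.trans_lt (hstrict k))
    exact absurd ((hgrow (2 ^ B + 1)).trans (hlevel (2 ^ B + 1)).2.1) (by omega)
  have hmk : m ^ (k + 1) ≤ I := by
    refine Submodule.le_of_le_smul_of_le_jacobson_bot (I := m) (IsNoetherian.noetherian _)
      (IsLocalRing.maximalIdeal_le_jacobson _) ?_
    rw [smul_eq_mul, ← pow_succ']
    exact le_sup_right.trans hk.le
  obtain ⟨-, -, b, hb⟩ := hlevel k
  choose b' hb' using fun i => Ideal.Quotient.mk_surjective (b i)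
  refine ⟨b', fun x => ?_⟩
  have hspan : Ideal.Quotient.mk (I ⊔ m ^ (k + 1)) x ∈ Submodule.span ℤ_[2] (Set.range b) :=
    (AddSubgroup.closure_le (K := (Submodule.span ℤ_[2] (Set.range b)).toAddSubgroup)).mpr
      Submodule.subset_span (hb _)
  obtain ⟨c, hc⟩ := (Submodule.mem_span_range_iff_exists_fun _).mp hspan
  refine ⟨c, sup_le le_rfl hmk ((Ideal.Quotient.eq (I := I ⊔ m ^ (k + 1))).mp ?_)⟩
  rw [← Ideal.Quotient.mkₐ_eq_mk ℤ_[2], map_sum]
  simp only [map_smul]
  rw [Ideal.Quotient.mkₐ_eq_mk]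
  simp only [hb']
  exact hc.symm

end Fermat.Agent.TwoAdic

end
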