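import Fermat.Agent.TwoAdic.Dihedral.Setup
import Fermat.Agent.TwoAdic.Unramified.Main

/-!
# The ring generated by a deformation in normal form is spanned by `h₂ · 2 ^ |Q|` elements

With `η` the rotation part, of norm one, the coordinates of its values at `g` and `g⁻¹` span two
dimensions together, one if `g = g⁻¹`.
-/

set_option autoImplicit false

noncomputable section

open IsLocalRing Matrix NumberField

namespace Fermat.Agent.TwoAdic

local notation "ℚ̄" => AlgebraicClosure ℚ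
local notation "Γℚ" => (AlgebraicClosure ℚ ≃ₐ[ℚ] AlgebraicClosure ℚ)

open Selmer (CubicRoots)

namespace DihedralCount

variable {A : Type} [CommRing A]

/-- The residual matrix of a permutation of the roots. -/
def permMat (A : Type) [CommRing A] (π : Equiv.Perm (Fin 3)) : Matrix (Fin 2) (Fin 2) A :=
  Matrix.of fun i j =>
    if π.symm i.castSucc = 2 ∨ π.symm i.castSucc = j.castSucc then 1 else 0

lemma mat_eq (T : CubicRoots) (σ : Γℚ) : T.mat A σ = permMat A (T.perm σ) := rfl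

lemma permMat_map [CharP A 2] (π : Equiv.Perm (Fin 3)) :
    permMat A π = (permMat (ZMod 2) π).map (ZMod.castHom (dvd_refl 2) A) := by
  ext i j
  simp only [permMat, Matrix.of_apply, Matrix.map_apply]
  split_ifs <;> simp

lemma permMat_mul_two : ∀ π ρ : Equiv.Perm (Fin 3),
    permMat (ZMod 2) (π * ρ) = permMat (ZMod 2) π * permMat (ZMod 2) ρ := by
  decide

lemma permMat_mul [CharP A 2] (π ρ : Equiv.Perm (Fin 3)) :
    permMat A (π * ρ) = permMat A π * permMat A ρ := by
  rw [permMat_map, permMat_map π, permMat_map ρ, permMat_mul_two, Matrix.map_mul]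

lemma permMat_one : permMat A (1 : Equiv.Perm (Fin 3)) = 1 := by
  ext i j
  fin_cases i <;> fin_cases j <;> simp [permMat, Equiv.Perm.one_symm]

/-- Matrices commuting with the rotation, in coordinates. -/
def Rot (M : Matrix (Fin 2) (Fin 2) A) : Prop :=
  M 0 0 = M 1 1 + M 0 1 ∧ M 1 0 = M 0 1

lemma Rot.of_isRotation {M : Matrix (Fin 2) (Fin 2) A} (h : IsRotation M) : Rot M := by
  obtain ⟨a, b, rfl⟩ := h
  constructor <;> simp [rotMat]

lemma Rot.mul {M N : Matrix (Fin 2) (Fin 2) A} (hM : Rot M) (hN : Rot N) : Rot (M * N) := by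
  constructor <;> simp only [Matrix.mul_apply, Fin.sum_univ_two, hM.1, hM.2, hN.1, hN.2] <;> ring

lemma Rot.comm {M N : Matrix (Fin 2) (Fin 2) A} (hM : Rot M) (hN : Rot N) : M * N = N * M := by
  ext i j
  fin_cases i <;> fin_cases j <;>
    simp only [Fin.zero_eta, Fin.mk_one, Matrix.mul_apply, Fin.sum_univ_two, hM.1, hM.2, hN.1,
      hN.2] <;> ring

lemma Rot.one : Rot (1 : Matrix (Fin 2) (Fin 2) A) := by constructor <;> simp

lemma permMat_rot_two : ∀ π : Equiv.Perm (Fin 3), Equiv.Perm.sign π = 1 →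
    permMat (ZMod 2) π 0 0 = permMat (ZMod 2) π 1 1 + permMat (ZMod 2) π 0 1 ∧
      permMat (ZMod 2) π 1 0 = permMat (ZMod 2) π 0 1 := by
  decide

lemma rot_permMat [CharP A 2] {π : Equiv.Perm (Fin 3)} (h : Equiv.Perm.sign π = 1) :
    Rot (permMat A π) := by
  obtain ⟨h1, h2⟩ := permMat_rot_two π h
  rw [permMat_map]
  constructor <;> simp only [Matrix.map_apply, h1, h2, map_add]

lemma eq_one_of_fix : ∀ (π : Equiv.Perm (Fin 3)) (i : Fin 3), π i = i →
    Equiv.Perm.sign π = 1 → π = 1 := by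
  decide

lemma sign_ne_one_of_involution : ∀ π : Equiv.Perm (Fin 3), π * π = 1 → π ≠ 1 →
    Equiv.Perm.sign π ≠ 1 := by
  decide

lemma sign_mul_eq_one : ∀ π ρ : Equiv.Perm (Fin 3), Equiv.Perm.sign π ≠ 1 →
    Equiv.Perm.sign ρ ≠ 1 → Equiv.Perm.sign (π * ρ) = 1 := by
  decide

/-- A matrix residually `1` has `2`-power order. -/
lemma exists_pow_eq_one [IsLocalRing A] [Finite A] [CharP A 2] (g : Matrix (Fin 2) (Fin 2) A)
    (hg : g.map (residue A) = 1) : ∃ n : ℕ, g ^ (2 ^ n) = 1 := by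
  obtain ⟨j, hj⟩ : IsNilpotent (maximalIdeal A) := by
    rw [← IsLocalRing.jacobson_eq_maximalIdeal ⊥ bot_ne_top]
    exact IsArtinianRing.isNilpotent_jacobson_bot
  have hX : ∀ (i : ℕ) (x y : Fin 2), ((g - 1) ^ i) x y ∈ maximalIdeal A ^ i := by
    intro i
    induction i with
    | zero => intro x y; simp
    | succ i ih =>
      intro x y
      rw [pow_succ, pow_succ, Matrix.mul_apply]
      refine sum_mem fun z _ => Ideal.mul_mem_mul (ih x z) ?_
      rw [← residue_eq_zero_iff, Matrix.sub_apply, map_sub]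
      have h1 := congrFun (congrFun hg z) y
      rw [Matrix.map_apply] at h1
      rw [h1, ← Matrix.map_apply (f := residue A) (M := (1 : Matrix (Fin 2) (Fin 2) A)),
        Matrix.map_one _ (map_zero _) (map_one _), sub_self]
  refine ⟨j, ?_⟩
  have hz : (g - 1) ^ (2 ^ j) = 0 := by
    have h0 : (g - 1) ^ j = 0 := by
      ext x y
      have h1 := hX j x y
      rw [hj] at h1
      exact Ideal.mem_bot.1 h1
    exact pow_eq_zero_of_le Nat.lt_two_pow_self.le h0
  have h := add_pow_char_pow_of_commute 2 j (Commute.one_right (g - 1))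
  rw [sub_add_cancel, hz, one_pow, zero_add] at h
  exact h

/-- The `(1,1)` coordinates of a group of rotations span a subring. -/
lemma span_coord_mul (h2 : (2 : A) = 0) (G : Subgroup (Matrix (Fin 2) (Fin 2) A)ˣ)
    (hG : ∀ g ∈ G, Rot g.1) (hinv : ∀ g ∈ G, (g⁻¹).1 1 1 = g.1 1 1 + g.1 0 1)
    (hinv' : ∀ g ∈ G, (g⁻¹).1 0 1 = -g.1 0 1) :
    (∀ g ∈ G, g.1 0 1 ∈ AddSubgroup.closure (Set.range fun g : G => g.1.1 1 1)) ∧
    ∀ g ∈ G, ∀ h ∈ G,
      g.1 1 1 * h.1 1 1 ∈ AddSubgroup.closure (Set.range fun g : G => g.1.1 1 1) := by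
  set W := AddSubgroup.closure (Set.range fun g : G => g.1.1 1 1)
  have ha : ∀ g ∈ G, g.1 1 1 ∈ W := fun g hg => AddSubgroup.subset_closure ⟨⟨g, hg⟩, rfl⟩
  have hb : ∀ g ∈ G, g.1 0 1 ∈ W := fun g hg => by
    have h := sub_mem (ha _ (G.inv_mem hg)) (ha g hg)
    rwa [hinv g hg, add_sub_cancel_left] at h
  refine ⟨hb, fun g hg h hh => ?_⟩
  have h1 : ∀ x y, x ∈ G → y ∈ G → x.1 0 1 * y.1 0 1 + x.1 1 1 * y.1 1 1 ∈ W := by
    intro x y hx hy
    have := ha _ (G.mul_mem hx hy)
    simpa only [Units.val_mul, Matrix.mul_apply, Fin.sum_univ_two, (hG x hx).2] using this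
  have ab : ∀ g ∈ G, ∀ h ∈ G, g.1 1 1 * h.1 0 1 ∈ W := by
    intro g hg h hh
    have h3 := sub_mem (h1 g _ hg (G.inv_mem hh)) (h1 g h hg hh)
    rw [hinv h hh, hinv' h hh] at h3
    convert h3 using 1
    linear_combination (g.1 0 1 * h.1 0 1) * h2
  have hbb : g.1 0 1 * h.1 0 1 ∈ W := by
    have h3 := sub_mem (ab _ (G.inv_mem hg) h hh) (ab g hg h hh)
    rwa [hinv g hg, add_mul, add_sub_cancel_left] at h3
  convert sub_mem (h1 g h hg hh) hbb using 1
  ring

/-- Pad a family to a given size. -/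
lemma exists_fin_family {ι : Type*} [Finite ι] (f : ι → A) {n : ℕ} (h : Nat.card ι ≤ n) :
    ∃ b : Fin n → A, Set.range f ⊆ Set.range b := by
  classical
  let _ := Fintype.ofFinite ι
  rw [Nat.card_eq_fintype_card] at h
  obtain ⟨e⟩ : Nonempty (ι ↪ Fin n) :=
    Function.Embedding.nonempty_of_card_le (by simpa using h)
  exact ⟨Function.extend e f 0, by
    rintro _ ⟨i, rfl⟩
    exact ⟨e i, e.injective.extend_apply f 0 i⟩⟩

lemma prod_mul_prod_symmDiff {ι : Type*} [DecidableEq ι] (u : ι → A) (hu : ∀ v, u v ^ 2 = 1)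
    (s t : Finset ι) :
    (∏ v ∈ s, u v) * ∏ v ∈ t, u v = ∏ v ∈ (s \ t) ∪ (t \ s), u v := by
  rw [Finset.prod_union disjoint_sdiff_sdiff, ← Finset.prod_inter_mul_prod_diff s t,
    ← Finset.prod_inter_mul_prod_diff t s, Finset.inter_comm t s]
  have : (∏ v ∈ s ∩ t, u v) ^ 2 = 1 := by
    rw [← Finset.prod_pow]
    exact Finset.prod_eq_one fun v _ => hu v
  linear_combination (∏ v ∈ s \ t, u v) * (∏ v ∈ t \ s, u v) * this

end DihedralCount

open DihedralCount

/-- The spanning bound. -/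
theorem exists_span_entries {T : CubicRoots} {S₀ Q : Finset ℕ} (hT : IsDihedralSetup T S₀)
    (K : IntermediateField ℚ ℚ̄) [NumberField K] [IsTotallyComplex K]
    (hK : ∀ σ : Γℚ, σ ∈ K.fixingSubgroup ↔ Equiv.Perm.sign (T.perm σ) = 1)
    {A : Type} [CommRing A] [IsLocalRing A] [Finite A] (h2 : (2 : A) = 0)
    (hA : ∀ a : A, a ∈ maximalIdeal A ∨ a - 1 ∈ maximalIdeal A)
    {pl : SignedPlaces (S₀ ∪ Q)} {r : Γℚ →* Matrix (Fin 2) (Fin 2) A}
    {u : (S₀ ∪ Q : Finset ℕ) → A} (hr : IsSignedMat T pl r u) (hr' : IsDihedralMat T r)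
    (hinertia : ∀ q : ℕ, q.Prime → ∀ P : ValuationSubring ℚ̄, P.LiesOverPrime q →
      ∀ σ ∈ P.inertiaSubgroupIn ℚ, Equiv.Perm.sign (T.perm σ) = 1 → r σ = 1)
    (hsign : ∀ v : (S₀ ∪ Q : Finset ℕ), (v : ℕ) ∈ S₀ →
      ∃ τ : Γℚ, Equiv.Perm.sign (T.perm τ) = 1 ∧ r τ = u v • (1 : Matrix (Fin 2) (Fin 2) A)) :
    ∃ b : Fin (2 ^ padicValNat 2 (Nat.card (ClassGroup (𝓞 K))) * 2 ^ Q.card) → A,
      ∀ x ∈ Subring.closure ({x : A | ∃ σ i j, x = r σ i j} ∪ Set.range u),
        x ∈ AddSubgroup.closure (Set.range b) := by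
  classical
  have hchar : CharP A 2 := CharTwo.of_one_ne_zero_of_two_eq_zero one_ne_zero h2
  have heven : ∀ σ : K.fixingSubgroup, Equiv.Perm.sign (T.perm (σ : Γℚ)) = 1 :=
    fun σ => (hK _).1 σ.2
  let η₀ : K.fixingSubgroup →* Matrix (Fin 2) (Fin 2) A :=
    { toFun := fun σ => r (σ : Γℚ) * permMat A (T.perm (σ : Γℚ))⁻¹
      map_one' := by simp [permMat_one]
      map_mul' := fun σ τ => by
        have hs : Equiv.Perm.sign (T.perm (σ : Γℚ))⁻¹ = 1 := by simp [heven σ]
        have hc : r (τ : Γℚ) * permMat A (T.perm (σ : Γℚ))⁻¹ =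
            permMat A (T.perm (σ : Γℚ))⁻¹ * r (τ : Γℚ) :=
          (Rot.of_isRotation (hr'.rotation _ (heven τ))).comm (rot_permMat hs)
        have hc' : permMat A (T.perm (τ : Γℚ))⁻¹ * permMat A (T.perm (σ : Γℚ))⁻¹ =
            permMat A (T.perm (σ : Γℚ))⁻¹ * permMat A (T.perm (τ : Γℚ))⁻¹ :=
          (rot_permMat (by simp [heven τ])).comm (rot_permMat hs)
        simp only [Subgroup.coe_mul, map_mul, _root_.mul_inv_rev]
        rw [permMat_mul, hc', ← mul_assoc, mul_assoc (r (σ : Γℚ)) (r (τ : Γℚ)), hc]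
        simp only [mul_assoc] }
  have hη₀ : ∀ σ, η₀ σ = r (σ : Γℚ) * permMat A (T.perm (σ : Γℚ))⁻¹ := fun _ => rfl
  have hrot : ∀ σ, Rot (η₀ σ) := fun σ =>
    (Rot.of_isRotation (hr'.rotation _ (heven σ))).mul (rot_permMat (by simp [heven σ]))
  have hres : ∀ σ, (η₀ σ).map (residue A) = 1 := fun σ => by
    rw [hη₀, Matrix.map_mul, hr.residual, mat_eq, ← Matrix.map_mul, ← permMat_mul,
      mul_inv_cancel, permMat_one, Matrix.map_one _ (map_zero _) (map_one _)]
  have hdet : ∀ σ, (η₀ σ).det = 1 := fun σ => by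
    have h1 : ∀ π : Equiv.Perm (Fin 3), (permMat (ZMod 2) π).det = 1 := by decide
    rw [hη₀, Matrix.det_mul, hr.det, one_mul, permMat_map, ← RingHom.mapMatrix_apply,
      ← RingHom.map_det, h1, map_one]
  let η : K.fixingSubgroup →* (Matrix (Fin 2) (Fin 2) A)ˣ := η₀.toHomUnits
  let G := η.range
  have hGrot : ∀ g ∈ G, Rot g.1 := by
    rintro _ ⟨σ, rfl⟩; exact hrot σ
  have hadj : ∀ σ, ((η σ)⁻¹).1 = (η₀ σ).adjugate := fun σ => by
    have h := congrArg (fun M : Matrix (Fin 2) (Fin 2) A => (η₀ σ).adjugate * M)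
      (show η₀ σ * ((η σ)⁻¹).1 = 1 from (η σ).mul_inv)
    simpa only [← mul_assoc, Matrix.adjugate_mul, hdet, one_smul, one_mul, mul_one] using h
  have hinv : ∀ g ∈ G, (g⁻¹).1 1 1 = g.1 1 1 + g.1 0 1 := by
    rintro _ ⟨σ, rfl⟩
    show ((η σ)⁻¹).1 1 1 = η₀ σ 1 1 + η₀ σ 0 1
    rw [hadj σ, Matrix.adjugate_fin_two]
    simpa using (hrot σ).1
  have hinv' : ∀ g ∈ G, (g⁻¹).1 0 1 = -g.1 0 1 := by
    rintro _ ⟨σ, rfl⟩
    show ((η σ)⁻¹).1 0 1 = -η₀ σ 0 1
    rw [hadj σ, Matrix.adjugate_fin_two]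
    simp
  -- the bound on the group
  let _ : CommGroup G := { (inferInstance : Group G) with
    mul_comm := fun a b => Subtype.ext (Units.ext ((hGrot _ a.2).comm (hGrot _ b.2))) }
  have hcard : Nat.card G ≤ 2 ^ padicValNat 2 (Nat.card (ClassGroup (𝓞 K))) := by
    obtain ⟨L, hL, hLr⟩ := hr.factors
    let L' : IntermediateField ℚ ℚ̄ := L ⊔ IntermediateField.adjoin ℚ (Set.range T.root)
    have : FiniteDimensional ℚ (IntermediateField.adjoin ℚ (Set.range T.root)) :=
      IntermediateField.finiteDimensional_adjoin fun x _ => Algebra.IsIntegral.isIntegral x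
    have hfin : FiniteDimensional ℚ L' := IntermediateField.finiteDimensional_sup _ _
    have h := Unramified.natCard_range_dvd_card_classGroup K η.rangeRestrict
      ⟨L', hfin, fun σ hσ => Subtype.ext (Units.ext (by
        have hp : T.perm (σ : Γℚ) = 1 := T.perm_eq_one_of_forall fun i =>
          hσ ⟨_, (le_sup_right : _ ≤ L') (IntermediateField.subset_adjoin ℚ _ ⟨i, rfl⟩)⟩
        show η₀ σ = 1
        rw [hη₀, hp, inv_one, permMat_one, mul_one]
        exact hLr _ fun x hx => hσ ⟨x, (le_sup_left : _ ≤ L') hx⟩))⟩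
      (fun g => by
        obtain ⟨σ, hσ⟩ := g.1.2
        obtain ⟨n, hn⟩ := exists_pow_eq_one (η₀ σ) (hres σ)
        refine ⟨n, Subtype.ext (Subtype.ext (Units.ext ?_))⟩
        show g.1.1.1 ^ (2 ^ n) = 1
        rw [← hσ]
        exact hn)
      (fun q hq P hP σ hσ => Subtype.ext (Units.ext (by
        show η₀ σ = 1
        have hp : T.perm (σ : Γℚ) = 1 := by
          by_cases hq' : q ∈ S₀
          · obtain ⟨i, hi⟩ := hT.decomposition_fix q hq' P hP
            refine eq_one_of_fix _ i (hi _ ?_) (heven σ)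
            obtain ⟨τ, -, hτ⟩ := hσ
            exact hτ ▸ τ.2
          · exact hT.unramified q hq hq' P hP _ hσ
        rw [hη₀, hp, inv_one, permMat_one, mul_one]
        exact hinertia q hq P hP _ hσ (heven σ))))
    rw [MonoidHom.range_eq_top.2 η.rangeRestrict_surjective, Subgroup.card_top] at h
    exact Nat.le_of_dvd (pow_pos two_pos _) h
  -- the span
  let Q' : Finset ↥(S₀ ∪ Q) := Finset.univ.filter fun v => v.1 ∉ S₀
  have hQ' : Q'.card ≤ Q.card := by
    refine Finset.card_le_card_of_injOn Subtype.val (fun v hv => ?_) Subtype.val_injective.injOn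
    simp only [Q', Finset.coe_filter, Finset.mem_univ, true_and, Set.mem_setOf_eq] at hv
    exact (Finset.mem_union.1 v.2).resolve_left hv
  let f : G × Q'.powerset → A := fun x => x.1.1.1 1 1 * ∏ v ∈ x.2.1, u v
  obtain ⟨b, hb⟩ := exists_fin_family f (n := 2 ^ padicValNat 2 (Nat.card (ClassGroup (𝓞 K))) *
      2 ^ Q.card) (by
    rw [Nat.card_prod]
    refine Nat.mul_le_mul hcard ?_
    rw [Nat.card_eq_fintype_card, Fintype.card_coe, Finset.card_powerset]
    exact Nat.pow_le_pow_right two_pos hQ')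
  refine ⟨b, fun x hx => AddSubgroup.closure_mono hb ?_⟩
  set W₀ := AddSubgroup.closure (Set.range fun g : G => g.1.1 1 1)
  set W := AddSubgroup.closure (Set.range f)
  obtain ⟨hWb, hWmul⟩ := span_coord_mul h2 G hGrot hinv hinv'
  have hW₀ : ∀ w ∈ W₀, ∀ s ∈ Q'.powerset, w * ∏ v ∈ s, u v ∈ W := by
    intro w hw s hs
    induction hw using AddSubgroup.closure_induction with
    | mem w hw => obtain ⟨g, rfl⟩ := hw; exact AddSubgroup.subset_closure ⟨(g, ⟨s, hs⟩), rfl⟩
    | zero => rw [zero_mul]; exact zero_mem W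
    | add y z _ _ hy hz => rw [add_mul]; exact add_mem hy hz
    | neg y _ hy => rw [neg_mul]; exact neg_mem hy
  have hone : (1 : A) ∈ W₀ := AddSubgroup.subset_closure ⟨1, by simp⟩
  let Z : Subring A :=
    { carrier := W
      one_mem' := by simpa using hW₀ 1 hone ∅ (Finset.empty_mem_powerset _)
      zero_mem' := zero_mem W
      add_mem' := fun h h' => add_mem h h'
      neg_mem' := fun h => neg_mem h
      mul_mem' := fun {y z} hy hz => by
        induction hy using AddSubgroup.closure_induction with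
        | mem y hy =>
          induction hz using AddSubgroup.closure_induction with
          | mem z hz =>
            obtain ⟨⟨g, s, hs⟩, rfl⟩ := hy
            obtain ⟨⟨h, t, ht⟩, rfl⟩ := hz
            show g.1.1 1 1 * (∏ v ∈ s, u v) * (h.1.1 1 1 * ∏ v ∈ t, u v) ∈ W
            rw [mul_mul_mul_comm, prod_mul_prod_symmDiff u hr.sq_eq_one]
            rw [Finset.mem_powerset] at hs ht
            exact hW₀ _ (hWmul _ g.2 _ h.2) _ (Finset.mem_powerset.2 (Finset.union_subset
              (Finset.sdiff_subset.trans hs) (Finset.sdiff_subset.trans ht)))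
          | zero => rw [mul_zero]; exact zero_mem W
          | add a c _ _ ha hc => rw [mul_add]; exact add_mem ha hc
          | neg a _ ha => rw [mul_neg]; exact neg_mem ha
        | zero => rw [zero_mul]; exact zero_mem W
        | add a c _ _ ha hc => rw [add_mul]; exact add_mem ha hc
        | neg a _ ha => rw [neg_mul]; exact neg_mem ha }
  have hW₀Z : ∀ w ∈ W₀, w ∈ Z := fun w hw => by
    show w ∈ W
    simpa using hW₀ w hw ∅ (Finset.empty_mem_powerset _)
  have hperm : ∀ (π : Equiv.Perm (Fin 3)) i j, permMat A π i j ∈ Z := fun π i j => by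
    simp only [permMat, Matrix.of_apply]
    split_ifs
    · exact one_mem Z
    · exact zero_mem Z
  have hmul : ∀ {M N : Matrix (Fin 2) (Fin 2) A}, (∀ i j, M i j ∈ Z) → (∀ i j, N i j ∈ Z) →
      ∀ i j, (M * N) i j ∈ Z := fun hM hN i j => by
    rw [Matrix.mul_apply]
    exact sum_mem fun l _ => Z.mul_mem (hM i l) (hN l j)
  have hev : ∀ σ : Γℚ, Equiv.Perm.sign (T.perm σ) = 1 → ∀ i j, r σ i j ∈ Z := by
    intro σ hσ
    let g : G := ⟨η ⟨σ, (hK σ).2 hσ⟩, _, rfl⟩
    have e : r σ = g.1.1 * permMat A (T.perm σ) := by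
      show _ = η₀ _ * _
      rw [hη₀, mul_assoc, ← permMat_mul, inv_mul_cancel, permMat_one, mul_one]
    rw [e]
    refine hmul (fun i j => hW₀Z _ ?_) (hperm _)
    have h11 : g.1.1 1 1 ∈ W₀ := AddSubgroup.subset_closure ⟨g, rfl⟩
    have h01 : g.1.1 0 1 ∈ W₀ := hWb _ g.2
    fin_cases i <;> fin_cases j
    · exact (hGrot _ g.2).1 ▸ add_mem h11 h01
    · exact h01
    · exact (hGrot _ g.2).2 ▸ h01
    · exact h11
  have hc : Equiv.Perm.sign (T.perm complexConjugation) ≠ 1 :=
    sign_ne_one_of_involution _ (by rw [← map_mul, complexConjugation_mul_self, map_one]) hT.conj_ne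
  suffices Subring.closure ({x : A | ∃ σ i j, x = r σ i j} ∪ Set.range u) ≤ Z from this hx
  refine Subring.closure_le.2 (Set.union_subset ?_ ?_)
  · rintro _ ⟨σ, i, j, rfl⟩
    by_cases hσ : Equiv.Perm.sign (T.perm σ) = 1
    · exact hev σ hσ i j
    · have e : r σ = r (σ * complexConjugation) * permMat A (T.perm complexConjugation) := by
        rw [← mat_eq, ← hr'.conj_eq, ← map_mul, mul_assoc, complexConjugation_mul_self, mul_one]
      rw [e]
      exact hmul (hev _ (by rw [map_mul]; exact sign_mul_eq_one _ _ hσ hc)) (hperm _) i j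
  · rintro _ ⟨v, rfl⟩
    by_cases hv : (v : ℕ) ∈ S₀
    · obtain ⟨τ, hτ, hrτ⟩ := hsign v hv
      have := hev τ hτ 0 0
      rw [hrτ] at this
      simpa using this
    · show u v ∈ W
      have := hW₀ 1 hone {v} (Finset.mem_powerset.2 (by simp [Q', hv]))
      simpa using this

end Fermat.Agent.TwoAdic

end
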