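import Fermat.Agent.TwoAdic.Contracts.Props
import Fermat.Agent.TwoAdic.Dihedral.Core

/-!
# The dihedral bound at a tres curve

`exists_generators_mod_two` for the residual representation of `V`, transported along an
identification of it with the sum-zero representation of a numbering of the roots.
-/

set_option autoImplicit false

noncomputable section

open NumberField IsLocalRing Fermat.Agent.Deformation

namespace Fermat.Agent.TwoAdic

local notation "ℚ̄" => AlgebraicClosure ℚ
local notation "Γℚ" => (AlgebraicClosure ℚ ≃ₐ[ℚ] AlgebraicClosure ℚ)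
local notation "k₂" => ResidueField ℤ_[2]

open Selmer (CubicRoots)

variable {S : Finset ℕ} {pl : SignedPlaces S} {ρ₁ ρ₂ : ResidualGaloisRep k₂}

/-- A signed-line ring for a residual representation is one for any equivalent one. -/
def SignedRingData.congrResidual (D : SignedRingData ρ₁ pl) (h : ρ₁.IsEquiv ρ₂) :
    SignedRingData ρ₂ pl where
  R := D.R
  residue_surjective := D.residue_surjective
  ρ := D.ρ
  u := D.u
  isSignedType := D.isSignedType
  residual_isEquiv := by
    obtain ⟨e⟩ := h
    obtain ⟨f⟩ := D.residual_isEquiv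
    exact ⟨f.trans (e.baseChangeAlong _)⟩
  universal A _ _ _ _ _ _ hA ρA uA hρA hres := by
    refine D.universal A hA ρA uA hρA ?_
    obtain ⟨e⟩ := h
    obtain ⟨f⟩ := hres
    exact ⟨f.trans (e.baseChangeAlong _).symm⟩

/-- The residual hypotheses give places adapted to `T`. -/
theorem isPlaces_of_isResidualSigned {T : CubicRoots} (h : ρ₁.IsEquiv (rhoBar T))
    (hover : IsPlacesOver pl) (hsig : IsResidualSigned ρ₁ pl) : IsPlaces T pl where
  liesOver v := (hover v).1
  frob v := (hover v).2
  frob_ne v hv := hsig.frob_ne_one v <| by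
    obtain ⟨e⟩ := h
    refine LinearMap.ext fun x => e.toLinearEquiv.injective ?_
    rw [e.map_apply]
    have h1 : permRep T k₂ (pl.frob v) = 1 := LinearMap.ext fun w => Subtype.ext (funext fun i => by
      show (w : Fin 3 → k₂) ((T.perm (pl.frob v)).symm i) = (w : Fin 3 → k₂) i
      rw [hv]; rfl)
    exact LinearMap.congr_fun h1 (e.toLinearEquiv x)

/-- The bound, from the set-up of `T` and a copy `F` of `K` among the subfields of `ℚ̄`. -/
theorem exists_generators_of_setup {V : WeierstrassCurve ℤ} {hΔ : V.Δ ≠ 0} {T : CubicRoots}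
    (hsetup : IsDihedralSetup T (badPrimes V)) (hequiv : (residualTwo V hΔ).IsEquiv (rhoBar T))
    {K : Type} [Field K] [NumberField K] (F : IntermediateField ℚ ℚ̄) [NumberField F]
    [IsTotallyComplex F]
    (hF : ∀ σ : Γℚ, σ ∈ F.fixingSubgroup ↔ Equiv.Perm.sign (T.perm σ) = 1)
    (hclass : Nat.card (ClassGroup (𝓞 F)) = classNumber K) {Q : Finset ℕ}
    (hQ : ∀ q ∈ Q, IsTranspositionPrime T (badPrimes V) q)
    (hvan : T.SelmerVanishes (badPrimes V ∪ Q)) {pl : SignedPlaces (signSet V Q)}
    (hover : IsPlacesOver pl) (hsig : IsResidualSigned (residualTwo V hΔ) pl)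
    (D : SignedRingData (residualTwo V hΔ) pl) :
    ∃ b : Fin (rankBound K Q) → D.R, ∀ x : D.R, ∃ c : Fin (rankBound K Q) → ℤ_[2],
      x - ∑ i, c i • b i ∈ Ideal.span {(2 : D.R)} := by
  have hpow : rankBound K Q = 2 ^ padicValNat 2 (Nat.card (ClassGroup (𝓞 F))) * 2 ^ Q.card := by
    rw [rankBound, hclass, pow_add]
  obtain ⟨b, hb⟩ := exists_generators_mod_two hsetup F hF hQ hvan
    (isPlaces_of_isResidualSigned hequiv hover hsig) (D.congrResidual hequiv)
  rw [hpow]
  exact ⟨b, hb⟩

end Fermat.Agent.TwoAdic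

end
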