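import Fermat.Agent.TwoAdic.Dihedral.Setup
import Mathlib.Algebra.CharP.Two
import Mathlib.GroupTheory.Perm.Fin

/-!
# The normal form of two by two matrices in characteristic two

`rotDefect X` measures the distance of `X` from `A[w]`: it is a triple of total zero, indexed by
the three roots, and conjugation by the residual matrices permutes its entries.
-/

set_option autoImplicit false

noncomputable section

open Matrix IsLocalRing

namespace Fermat.Agent.TwoAdic.Dihedral

variable {A : Type} [CommRing A]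

/-- The element `a + b w`. -/
def rot (a b : A) : Matrix (Fin 2) (Fin 2) A := !![a + b, b; b, a]

/-- The part outside `A[w]`. -/
def offMat (y : Fin 3 → A) : Matrix (Fin 2) (Fin 2) A := !![y 2, y 0; y 1, y 2]

/-- The coordinates of a matrix outside `A[w]`. -/
def rotDefect (X : Matrix (Fin 2) (Fin 2) A) : Fin 3 → A :=
  ![X 0 0 + X 0 1 + X 1 1, X 0 0 + X 1 0 + X 1 1, X 0 1 + X 1 0]

/-- The matrix of a permutation of the roots at the first two roots. -/
def permMat (A : Type) [CommRing A] (π : Equiv.Perm (Fin 3)) : Matrix (Fin 2) (Fin 2) A :=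
  Matrix.of fun i j => if π.symm i.castSucc = 2 ∨ π.symm i.castSucc = j.castSucc then 1 else 0

theorem mat_eq_permMat (T : Selmer.CubicRoots) (σ : AlgebraicClosure ℚ ≃ₐ[ℚ] AlgebraicClosure ℚ) :
    T.mat A σ = permMat A (T.perm σ) := rfl

theorem smul_one_add_smul_rotMat (a b : A) :
    a • (1 : Matrix (Fin 2) (Fin 2) A) + b • rotMat A = rot a b := by
  ext i j
  fin_cases i <;> fin_cases j <;> simp [rot, rotMat]

theorem isRotation_iff {X : Matrix (Fin 2) (Fin 2) A} : IsRotation X ↔ ∃ a b, X = rot a b :=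
  exists₂_congr fun a b => by rw [smul_one_add_smul_rotMat]

theorem isReflection_iff {X : Matrix (Fin 2) (Fin 2) A} :
    IsReflection X ↔ ∃ a b, X = rot a b * !![0, 1; 1, 0] :=
  exists₂_congr fun a b => by rw [smul_one_add_smul_rotMat]

theorem rot_one_zero : rot (1 : A) 0 = 1 := by
  ext i j
  fin_cases i <;> fin_cases j <;> simp [rot]

theorem det_rot (a b : A) : (rot a b).det = (a + b) * a - b * b := by
  rw [rot, det_fin_two_of]

variable (h2 : (2 : A) = 0)

include h2

theorem add_self (x : A) : x + x = 0 := by linear_combination x * h2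

theorem rot_mul_rot (a b c d : A) :
    rot a b * rot c d = rot (a * c + b * d) (a * d + b * c + b * d) := by
  ext i j
  fin_cases i <;> fin_cases j <;>
    simp [rot, Matrix.mul_apply, Fin.sum_univ_two] <;> grind

theorem rotDefect_rot (a b : A) : rotDefect (rot a b) = 0 := by
  funext i
  fin_cases i <;> simp [rotDefect, rot] <;> grind

theorem rot_add_offMat (X : Matrix (Fin 2) (Fin 2) A) :
    rot (X 1 1 + X 0 1 + X 1 0) (X 0 0 + X 1 1) + offMat (rotDefect X) = X := by
  ext i j
  fin_cases i <;> fin_cases j <;> simp [rot, offMat, rotDefect] <;> grind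

theorem exists_rot_of_rotDefect_eq_zero {X : Matrix (Fin 2) (Fin 2) A} (h : rotDefect X = 0) :
    ∃ a b, X = rot a b := by
  refine ⟨X 1 1 + X 0 1 + X 1 0, X 0 0 + X 1 1, ?_⟩
  conv_lhs => rw [← rot_add_offMat h2 X]
  rw [h, add_eq_left]
  ext i j
  fin_cases i <;> fin_cases j <;> rfl

theorem rotDefect_sum (X : Matrix (Fin 2) (Fin 2) A) : ∑ i, rotDefect X i = 0 := by
  simp [Fin.sum_univ_three, rotDefect]
  grind

theorem rotDefect_offMat {y : Fin 3 → A} (hy : ∑ i, y i = 0) : rotDefect (offMat y) = y := by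
  rw [Fin.sum_univ_three] at hy
  funext i
  fin_cases i <;> simp [rotDefect, offMat] <;> grind

omit h2 in
theorem rotDefect_add (X Y : Matrix (Fin 2) (Fin 2) A) :
    rotDefect (X + Y) = rotDefect X + rotDefect Y := by
  funext i
  fin_cases i <;> simp [rotDefect] <;> ring

theorem rotDefect_one : rotDefect (1 : Matrix (Fin 2) (Fin 2) A) = 0 := by
  rw [← rot_one_zero, rotDefect_rot h2]

/-- Multiplicativity to first order: the defect adds up on matrices congruent to `1` whose defect
kills the maximal ideal. -/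
theorem rotDefect_mul [IsLocalRing A] {X Y : Matrix (Fin 2) (Fin 2) A}
    (hX : X.map (residue A) = 1) (hY : Y.map (residue A) = 1)
    (hxk : ∀ i, ∀ e ∈ maximalIdeal A, rotDefect X i * e = 0)
    (hyk : ∀ i, ∀ e ∈ maximalIdeal A, rotDefect Y i * e = 0) :
    rotDefect (X * Y) = rotDefect X + rotDefect Y := by
  have hent : ∀ Z : Matrix (Fin 2) (Fin 2) A, Z.map (residue A) = 1 → ∀ i j,
      (Z - 1) i j ∈ maximalIdeal A := by
    intro Z hZ i j
    rw [← residue_eq_zero_iff, Matrix.sub_apply, map_sub, ← Matrix.map_apply (f := residue A), hZ,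
      sub_eq_zero]
    by_cases h : i = j <;> simp [h, Matrix.one_apply]
  set E := X - 1
  set F := Y - 1
  have hdE : rotDefect X = rotDefect E := by
    conv_lhs => rw [show X = E + 1 from (sub_add_cancel X 1).symm, rotDefect_add,
      rotDefect_one h2, add_zero]
  have hdF : rotDefect Y = rotDefect F := by
    conv_lhs => rw [show Y = F + 1 from (sub_add_cancel Y 1).symm, rotDefect_add,
      rotDefect_one h2, add_zero]
  have hkill : ∀ (y : Fin 3 → A), (∀ i, ∀ e ∈ maximalIdeal A, y i * e = 0) →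
      ∀ Z : Matrix (Fin 2) (Fin 2) A, (∀ i j, Z i j ∈ maximalIdeal A) →
      offMat y * Z = 0 ∧ Z * offMat y = 0 := by
    intro y hy Z hZ
    have hy' : ∀ i, ∀ e ∈ maximalIdeal A, e * y i = 0 := fun i e he => by
      rw [mul_comm, hy i e he]
    constructor <;> ext i j <;> fin_cases i <;> fin_cases j <;>
      simp [offMat, Matrix.mul_apply, Fin.sum_univ_two, hy _ _ (hZ _ _), hy' _ _ (hZ _ _)]
  have hrotmem : ∀ Z : Matrix (Fin 2) (Fin 2) A, (∀ i j, Z i j ∈ maximalIdeal A) → ∀ i j,
      rot (Z 1 1 + Z 0 1 + Z 1 0) (Z 0 0 + Z 1 1) i j ∈ maximalIdeal A := by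
    intro Z hZ i j
    fin_cases i <;> fin_cases j <;> simp [rot] <;>
      first
        | exact Ideal.add_mem _ (Ideal.add_mem _ (Ideal.add_mem _ (hZ _ _) (hZ _ _)) (hZ _ _))
            (Ideal.add_mem _ (hZ _ _) (hZ _ _))
        | exact Ideal.add_mem _ (Ideal.add_mem _ (hZ _ _) (hZ _ _)) (hZ _ _)
        | exact Ideal.add_mem _ (hZ _ _) (hZ _ _)
  have hEF : rotDefect (E * F) = 0 := by
    have h1 := (hkill _ (fun i => hdE ▸ hxk i) F (hent Y hY)).1
    have h2' := (hkill _ (fun i => hdF ▸ hyk i) _ (hrotmem E (hent X hX))).2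
    rw [← rot_add_offMat h2 E, add_mul, h1, add_zero, ← rot_add_offMat h2 F, mul_add, h2',
      add_zero, rot_mul_rot h2, rotDefect_rot h2]
  rw [show X * Y = E * F + E + F + 1 by simp only [E, F]; noncomm_ring, rotDefect_add,
    rotDefect_add, rotDefect_add, rotDefect_one h2, hEF, hdE, hdF]
  abel

omit h2

variable (A)

theorem charTwo_of_two_eq_zero [Nontrivial A] (h : (2 : A) = 0) : CharP A 2 :=
  CharTwo.of_one_ne_zero_of_two_eq_zero one_ne_zero h

theorem permMat_map {B : Type} [CommRing B] (f : A →+* B) (π : Equiv.Perm (Fin 3)) :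
    (permMat A π).map f = permMat B π := by
  ext i j
  simp only [permMat, Matrix.map_apply, Matrix.of_apply]
  split_ifs <;> simp

variable {A}

theorem permMat_mul [Nontrivial A] (h : (2 : A) = 0) (π π' : Equiv.Perm (Fin 3)) :
    permMat A (π * π') = permMat A π * permMat A π' := by
  have := charTwo_of_two_eq_zero A h
  have key : ∀ a b : Equiv.Perm (Fin 3),
      permMat (ZMod 2) (a * b) = permMat (ZMod 2) a * permMat (ZMod 2) b := by decide +kernel
  rw [← permMat_map (ZMod 2) (ZMod.castHom dvd_rfl A), key π π', Matrix.map_mul,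
    permMat_map, permMat_map]

theorem permMat_one : permMat A 1 = 1 := by
  ext i j
  fin_cases i <;> fin_cases j <;> simp [permMat, Equiv.Perm.one_def]

theorem permMat_inv_mul [Nontrivial A] (h : (2 : A) = 0) (π : Equiv.Perm (Fin 3)) :
    permMat A π⁻¹ * permMat A π = 1 := by
  rw [← permMat_mul h, inv_mul_cancel, permMat_one]

theorem eq_one_of_permMat_eq_one [Nontrivial A] (h : (2 : A) = 0) {π : Equiv.Perm (Fin 3)}
    (hπ : permMat A π = 1) : π = 1 := by
  have := charTwo_of_two_eq_zero A h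
  have key : ∀ a : Equiv.Perm (Fin 3), permMat (ZMod 2) a = 1 → a = 1 := by decide +kernel
  refine key π (Matrix.map_injective (ZMod.castHom_injective A) ?_)
  change (permMat (ZMod 2) π).map (ZMod.castHom dvd_rfl A) =
    (1 : Matrix (Fin 2) (Fin 2) (ZMod 2)).map (ZMod.castHom dvd_rfl A)
  rw [permMat_map, hπ, Matrix.map_one _ (map_zero _) (map_one _)]

/-- Conjugation by the residual matrices permutes the defect. -/
theorem rotDefect_conj [Nontrivial A] (h : (2 : A) = 0) (π : Equiv.Perm (Fin 3)) :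
    ∀ (X : Matrix (Fin 2) (Fin 2) A) (i : Fin 3),
      rotDefect (permMat A π * X * permMat A π⁻¹) i = rotDefect X (π.symm i) := by
  let P : Equiv.Perm (Fin 3) → Prop := fun π => ∀ (X : Matrix (Fin 2) (Fin 2) A) (i : Fin 3),
    rotDefect (permMat A π * X * permMat A π⁻¹) i = rotDefect X (π.symm i)
  have hmul : ∀ a b, P a → P b → P (a * b) := by
    intro a b ha hb X i
    rw [_root_.mul_inv_rev, permMat_mul h, permMat_mul h,
      show permMat A a * permMat A b * X * (permMat A b⁻¹ * permMat A a⁻¹) =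
        permMat A a * (permMat A b * X * permMat A b⁻¹) * permMat A a⁻¹ by simp only [mul_assoc],
      ha, hb]
    rfl
  have h01 : P (Equiv.swap 0 1) := by
    intro X i
    fin_cases i <;>
      simp [rotDefect, permMat, Matrix.mul_apply, Fin.sum_univ_two, Equiv.swap_apply_def,
        Equiv.swap_inv] <;> grind
  have h02 : P (Equiv.swap 0 2) := by
    intro X i
    fin_cases i <;>
      simp [rotDefect, permMat, Matrix.mul_apply, Fin.sum_univ_two, Equiv.swap_apply_def,
        Equiv.swap_inv] <;> grind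
  have key : ∀ a : Equiv.Perm (Fin 3), a = Equiv.swap 0 1 * Equiv.swap 0 1 ∨
      a = Equiv.swap 0 1 ∨ a = Equiv.swap 0 2 ∨ a = Equiv.swap 0 1 * Equiv.swap 0 2 ∨
      a = Equiv.swap 0 2 * Equiv.swap 0 1 ∨
      a = Equiv.swap 0 1 * Equiv.swap 0 2 * Equiv.swap 0 1 := by decide
  rcases key π with rfl | rfl | rfl | rfl | rfl | rfl
  exacts [hmul _ _ h01 h01, h01, h02, hmul _ _ h01 h02, hmul _ _ h02 h01,
    hmul _ _ (hmul _ _ h01 h02) h01]

/-- At the fixed root of a transposition, the defect is the trace. -/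
theorem rotDefect_mul_transposition (h : (2 : A) = 0) {r : Fin 3} {π : Equiv.Perm (Fin 3)}
    (hr : π r = r) (hπ : π ≠ 1) (X : Matrix (Fin 2) (Fin 2) A) :
    rotDefect (X * permMat A π⁻¹) r = X.trace := by
  have key : ∀ (r : Fin 3) (π : Equiv.Perm (Fin 3)), π r = r → π ≠ 1 →
      (r = 0 ∧ π = Equiv.swap 1 2) ∨ (r = 1 ∧ π = Equiv.swap 0 2) ∨
        (r = 2 ∧ π = Equiv.swap 0 1) := by decide
  rcases key r π hr hπ with ⟨rfl, rfl⟩ | ⟨rfl, rfl⟩ | ⟨rfl, rfl⟩ <;>
    simp [rotDefect, permMat, Matrix.mul_apply, Fin.sum_univ_two, Equiv.swap_apply_def,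
      Equiv.swap_inv, Matrix.trace_fin_two] <;> grind

/-- A residual matrix is a rotation or a rotation times the reflection. -/
theorem exists_permMat_eq [Nontrivial A] (h : (2 : A) = 0) (π : Equiv.Perm (Fin 3)) :
    ∃ a b : A, (Equiv.Perm.sign π = 1 ∧ permMat A π = rot a b) ∨
      (Equiv.Perm.sign π ≠ 1 ∧ permMat A π = rot a b * !![0, 1; 1, 0]) := by
  have key : ∀ a : Equiv.Perm (Fin 3), a = 1 ∨ a = Equiv.swap 0 1 ∨ a = Equiv.swap 0 2 ∨
      a = Equiv.swap 1 2 ∨ a = Equiv.swap 0 1 * Equiv.swap 0 2 ∨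
      a = Equiv.swap 0 2 * Equiv.swap 0 1 := by decide
  rcases key π with rfl | rfl | rfl | rfl | rfl | rfl
  · exact ⟨1, 0, Or.inl ⟨by simp, by rw [permMat_one, rot_one_zero]⟩⟩
  · refine ⟨1, 0, Or.inr ⟨by decide, ?_⟩⟩
    ext i j
    fin_cases i <;> fin_cases j <;>
      simp [permMat, rot, Matrix.mul_apply, Fin.sum_univ_two, Equiv.swap_apply_def]
  · refine ⟨0, 1, Or.inr ⟨by decide, ?_⟩⟩
    ext i j
    fin_cases i <;> fin_cases j <;>
      simp [permMat, rot, Matrix.mul_apply, Fin.sum_univ_two, Equiv.swap_apply_def]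
  · refine ⟨1, 1, Or.inr ⟨by decide, ?_⟩⟩
    ext i j
    fin_cases i <;> fin_cases j <;>
      simp [permMat, rot, Matrix.mul_apply, Fin.sum_univ_two, Equiv.swap_apply_def] <;> grind
  · refine ⟨permMat A (Equiv.swap 0 1 * Equiv.swap 0 2) 1 1, permMat A (Equiv.swap 0 1 * Equiv.swap 0 2) 1 0, Or.inl ⟨by decide, ?_⟩⟩
    ext i j
    fin_cases i <;> fin_cases j <;>
      simp [permMat, rot, Equiv.swap_apply_def, Equiv.Perm.mul_def] <;> grind
  · refine ⟨permMat A (Equiv.swap 0 2 * Equiv.swap 0 1) 1 1, permMat A (Equiv.swap 0 2 * Equiv.swap 0 1) 1 0, Or.inl ⟨by decide, ?_⟩⟩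
    ext i j
    fin_cases i <;> fin_cases j <;>
      simp [permMat, rot, Equiv.swap_apply_def, Equiv.Perm.mul_def]

end Fermat.Agent.TwoAdic.Dihedral
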